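import Mathlib

/-!
# Row HARD, leaf TW-MIN: the linear algebra (helper59) — Mathlib only

* `iInf_ker_eq_bot_of_iSup_range_eq_top_h59`, `iSup_range_eq_top_of_iInf_ker_eq_bot_h59`,
  `iSup_range_eq_top_iff_h59`: for a pairwise commuting family of endomorphisms of a
  finite-dimensional vector space, the ranges span everything iff the common kernel is zero
  (`⇒`: Nakayama over the commutative algebra generated by the family; `⇐`: transposes).
* `exists_common_kernel_h59`: a commuting family of nilpotent endomorphisms can be killed on a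
  nonzero vector without leaving the common kernel of a second family commuting with it.
* `ctrl_core_h59`: **control without idempotents**.  `cor : V ↠ Y` with kernel in the span of the
  ranges of nilpotent operators `s j` ("augmentation ideal of a `p`-group in characteristic `p`"),
  intertwining commuting families `t i` on `V` and `T i` on `Y`: if the `t i` have a common
  nonzero kernel vector, so have the `T i`.
-/

set_option autoImplicit false
set_option linter.style.haveILetI false
set_option linter.deprecated false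

namespace Fermat.Agent.S38.H59

/-- **ALG, `⇒`** (Nakayama over the commutative algebra generated by the family). -/
theorem iInf_ker_eq_bot_of_iSup_range_eq_top_h59 {k V ι : Type*} [Field k] [AddCommGroup V]
    [Module k V] [Module.Finite k V] (f : ι → Module.End k V)
    (hcomm : ∀ i j, Commute (f i) (f j))
    (h : (⨆ i, LinearMap.range (f i)) = ⊤) : (⨅ i, LinearMap.ker (f i)) = ⊥ := by
  classical
  have hs : ∀ a ∈ Set.range f, ∀ b ∈ Set.range f, a * b = b * a := by
    rintro _ ⟨i, rfl⟩ _ ⟨j, rfl⟩
    exact (hcomm i j).eq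
  letI : CommRing (Algebra.adjoin k (Set.range f)) := Algebra.adjoinCommRingOfComm k hs
  let A := Algebra.adjoin k (Set.range f)
  let g : ι → A := fun i => ⟨f i, Algebra.subset_adjoin ⟨i, rfl⟩⟩
  let J : Ideal A := Ideal.span (Set.range g)
  have hfg : (⊤ : Submodule A V).FG := by
    have : Module.Finite A V := Module.Finite.of_restrictScalars_finite k A V
    exact Module.finite_def.mp this
  have hle : (⊤ : Submodule A V) ≤ J • ⊤ := by
    intro v _
    have hv : v ∈ ⨆ i, LinearMap.range (f i) := by rw [h]; trivial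
    refine Submodule.iSup_induction (fun i => LinearMap.range (f i))
      (motive := fun v => v ∈ (J • ⊤ : Submodule A V)) hv ?_ ?_ ?_
    · rintro i _ ⟨w, rfl⟩
      have : f i w = g i • w := rfl
      rw [this]
      exact Submodule.smul_mem_smul (Ideal.subset_span ⟨i, rfl⟩) trivial
    · exact Submodule.zero_mem _
    · intro x y hx hy
      exact Submodule.add_mem _ hx hy
  obtain ⟨r, hr, hr0⟩ :=
    Submodule.exists_sub_one_mem_and_smul_eq_zero_of_fg_of_le_smul J ⊤ hfg hle
  rw [eq_bot_iff]
  intro x hx
  rw [Submodule.mem_iInf] at hx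
  have hJ : ∀ a ∈ J, a • x = 0 := by
    intro a ha
    refine Submodule.span_induction (p := fun a _ => a • x = 0) ?_ ?_ ?_ ?_ ha
    · rintro _ ⟨i, rfl⟩
      exact LinearMap.mem_ker.mp (hx i)
    · exact zero_smul _ _
    · intro a b _ _ ha hb
      rw [add_smul, ha, hb, add_zero]
    · intro c a _ ha
      rw [smul_eq_mul, mul_smul, ha, smul_zero]
  have h1 := hJ _ hr
  have h2 := hr0 x trivial
  rw [sub_smul, h2, one_smul, zero_sub, neg_eq_zero] at h1
  exact (Submodule.mem_bot k).mpr h1

/-- **ALG, `⇐`** (the forward direction for the transposes). -/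
theorem iSup_range_eq_top_of_iInf_ker_eq_bot_h59 {k V ι : Type*} [Field k] [AddCommGroup V]
    [Module k V] [Module.Finite k V] (f : ι → Module.End k V)
    (hcomm : ∀ i j, Commute (f i) (f j))
    (h : (⨅ i, LinearMap.ker (f i)) = ⊥) : (⨆ i, LinearMap.range (f i)) = ⊤ := by
  classical
  let g : ι → Module.End k (Module.Dual k V) := fun i => (f i).dualMap
  have hgcomm : ∀ i j, Commute (g i) (g j) := by
    intro i j
    show (f i).dualMap * (f j).dualMap = (f j).dualMap * (f i).dualMap
    apply LinearMap.ext
    intro φ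
    apply LinearMap.ext
    intro v
    show φ (f j (f i v)) = φ (f i (f j v))
    have := congrArg (fun T : Module.End k V => T v) (hcomm i j).eq
    simp only [Module.End.mul_apply] at this
    rw [this]
  have hU : (⨆ i, LinearMap.range (g i)) = ⊤ := by
    have h1 : (⨆ i, LinearMap.range (g i)).dualCoannihilator = ⊥ := by
      rw [Submodule.dualCoannihilator_iSup_eq, eq_bot_iff, ← h]
      intro x hx
      rw [Submodule.mem_iInf] at hx ⊢
      intro i
      have hxi := hx i
      rw [Submodule.mem_dualCoannihilator] at hxi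
      rw [LinearMap.mem_ker]
      apply (Module.forall_dual_apply_eq_zero_iff k (f i x)).mp
      intro ψ
      exact hxi _ ⟨ψ, rfl⟩
    have h2 := Subspace.dualCoannihilator_dualAnnihilator_eq
      (W := (⨆ i, LinearMap.range (g i)))
    rw [h1, Submodule.dualAnnihilator_bot] at h2
    exact h2.symm
  have hker := iInf_ker_eq_bot_of_iSup_range_eq_top_h59 g hgcomm hU
  rw [← Subspace.dualAnnihilator_inj, Submodule.dualAnnihilator_top, eq_bot_iff]
  intro φ hφ
  rw [← hker, Submodule.mem_iInf]
  intro i
  rw [LinearMap.mem_ker]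
  apply LinearMap.ext
  intro v
  rw [Submodule.mem_dualAnnihilator] at hφ
  exact hφ (f i v) (Submodule.mem_iSup_of_mem i ⟨v, rfl⟩)

/-- **ALG.**  For a pairwise commuting family of endomorphisms of a finite-dimensional vector
space: the ranges span everything iff the common kernel is zero. -/
theorem iSup_range_eq_top_iff_h59 {k V ι : Type*} [Field k] [AddCommGroup V]
    [Module k V] [Module.Finite k V] (f : ι → Module.End k V)
    (hcomm : ∀ i j, Commute (f i) (f j)) :
    (⨆ i, LinearMap.range (f i)) = ⊤ ↔ (⨅ i, LinearMap.ker (f i)) = ⊥ :=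
  ⟨iInf_ker_eq_bot_of_iSup_range_eq_top_h59 f hcomm,
    iSup_range_eq_top_of_iInf_ker_eq_bot_h59 f hcomm⟩

/-- Killing nilpotent operators one at a time. -/
theorem exists_common_kernel_list_h59 {k V I J : Type*} [Field k] [AddCommGroup V] [Module k V]
    (t : I → Module.End k V) (s : J → Module.End k V)
    (hts : ∀ i j, Commute (t i) (s j)) (hss : ∀ j j', Commute (s j) (s j'))
    (hnil : ∀ j, IsNilpotent (s j)) (l : List J) (x : V) (hx : x ≠ 0) (hxt : ∀ i, t i x = 0) :
    ∃ x' : V, x' ≠ 0 ∧ (∀ i, t i x' = 0) ∧ ∀ j ∈ l, s j x' = 0 := by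
  classical
  induction l with
  | nil => exact ⟨x, hx, hxt, fun j hj => absurd hj List.not_mem_nil⟩
  | cons j l ih =>
    obtain ⟨x₁, hx₁, hx₁t, hx₁s⟩ := ih
    obtain ⟨n, hn⟩ := hnil j
    have hex : ∃ m : ℕ, (s j ^ m) x₁ = 0 := ⟨n, by rw [hn]; rfl⟩
    have hm0 : Nat.find hex ≠ 0 := by
      intro h0
      have := Nat.find_spec hex
      rw [h0, pow_zero] at this
      exact hx₁ this
    obtain ⟨m, hm⟩ := Nat.exists_eq_succ_of_ne_zero hm0
    refine ⟨(s j ^ m) x₁, ?_, ?_, ?_⟩
    · intro h
      have := Nat.find_min' hex h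
      omega
    · intro i
      have hc : Commute (t i) (s j ^ m) := (hts i j).pow_right m
      have := congrArg (fun T : Module.End k V => T x₁) hc.eq
      simp only [Module.End.mul_apply] at this
      rw [this, hx₁t i, map_zero]
    · intro j' hj'
      rcases List.mem_cons.mp hj' with rfl | hj'
      · have := Nat.find_spec hex
        rw [hm, pow_succ'] at this
        exact this
      · have hc : Commute (s j') (s j ^ m) := (hss j' j).pow_right m
        have := congrArg (fun T : Module.End k V => T x₁) hc.eq
        simp only [Module.End.mul_apply] at this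
        rw [this, hx₁s j' hj', map_zero]

/-- A nonzero common kernel vector of the `t i` can be moved into the common kernel of finitely
many commuting nilpotent operators `s j` commuting with the `t i`. -/
theorem exists_common_kernel_h59 {k V I J : Type*} [Field k] [AddCommGroup V] [Module k V]
    [Finite J] (t : I → Module.End k V) (s : J → Module.End k V)
    (hts : ∀ i j, Commute (t i) (s j)) (hss : ∀ j j', Commute (s j) (s j'))
    (hnil : ∀ j, IsNilpotent (s j)) (x : V) (hx : x ≠ 0) (hxt : ∀ i, t i x = 0) :
    ∃ x' : V, x' ≠ 0 ∧ (∀ i, t i x' = 0) ∧ ∀ j, s j x' = 0 := by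
  classical
  haveI := Fintype.ofFinite J
  obtain ⟨x', h1, h2, h3⟩ :=
    exists_common_kernel_list_h59 t s hts hss hnil (Finset.univ : Finset J).toList x hx hxt
  exact ⟨x', h1, h2, fun j => h3 j (Finset.mem_toList.mpr (Finset.mem_univ j))⟩

/-- **Control without idempotents.**  `cor : V ↠ Y` with `ker cor ≤ ∑ range (s j)`, `s j`
commuting nilpotent operators, intertwining the commuting families `t i` (on `V`, commuting
with the `s j`) and `T i` (on `Y`).  If the `t i` have a nonzero common kernel vector then so
have the `T i`. -/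
theorem ctrl_core_h59 {k V Y I J : Type*} [Field k] [AddCommGroup V] [Module k V]
    [Module.Finite k V] [AddCommGroup Y] [Module k Y] [Module.Finite k Y] [Finite J]
    (t : I → Module.End k V) (s : J → Module.End k V) (T : I → Module.End k Y)
    (cor : V →ₗ[k] Y)
    (htt : ∀ i i', Commute (t i) (t i')) (hts : ∀ i j, Commute (t i) (s j))
    (hss : ∀ j j', Commute (s j) (s j')) (hTT : ∀ i i', Commute (T i) (T i'))
    (hnil : ∀ j, IsNilpotent (s j))
    (hcor : ∀ i v, cor (t i v) = T i (cor v)) (hsurj : Function.Surjective cor)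
    (hker : LinearMap.ker cor ≤ ⨆ j, LinearMap.range (s j))
    (x : V) (hx : x ≠ 0) (hxt : ∀ i, t i x = 0) :
    ∃ y : Y, y ≠ 0 ∧ ∀ i, T i y = 0 := by
  classical
  obtain ⟨x', hx', hx't, hx's⟩ := exists_common_kernel_h59 t s hts hss hnil x hx hxt
  -- the family `t ∪ s` on `V`
  let F : I ⊕ J → Module.End k V := Sum.elim t s
  have hF : ∀ a b, Commute (F a) (F b) := by
    rintro (i | j) (i' | j')
    · exact htt i i'
    · exact hts i j'
    · exact (hts i' j).symm
    · exact hss j j'
  have hFker : (⨅ a, LinearMap.ker (F a)) ≠ ⊥ := by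
    intro h
    have : x' ∈ ⨅ a, LinearMap.ker (F a) := by
      rw [Submodule.mem_iInf]
      rintro (i | j)
      · exact LinearMap.mem_ker.mpr (hx't i)
      · exact LinearMap.mem_ker.mpr (hx's j)
    rw [h, Submodule.mem_bot] at this
    exact hx' this
  have hFrange : (⨆ a, LinearMap.range (F a)) ≠ ⊤ := fun h =>
    hFker (iInf_ker_eq_bot_of_iSup_range_eq_top_h59 F hF h)
  -- the family `T` on `Y`
  by_contra hY
  push Not at hY
  have hTker : (⨅ i, LinearMap.ker (T i)) = ⊥ := by
    rw [eq_bot_iff]
    intro y hy
    rw [Submodule.mem_iInf] at hy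
    by_contra hy0
    obtain ⟨i, hi⟩ := hY y (fun h => hy0 ((Submodule.mem_bot k).mpr h))
    exact hi (LinearMap.mem_ker.mp (hy i))
  have hTrange := iSup_range_eq_top_of_iInf_ker_eq_bot_h59 T hTT hTker
  have hmap : (⨆ i, LinearMap.range (T i)) ≤ Submodule.map cor (⨆ i, LinearMap.range (t i)) := by
    refine iSup_le fun i => ?_
    rintro _ ⟨y', rfl⟩
    obtain ⟨v', rfl⟩ := hsurj y'
    exact ⟨t i v', Submodule.mem_iSup_of_mem i ⟨v', rfl⟩, hcor i v'⟩
  apply hFrange
  rw [eq_top_iff]
  intro v _
  have hv : cor v ∈ Submodule.map cor (⨆ i, LinearMap.range (t i)) :=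
    hmap (by rw [hTrange]; trivial)
  obtain ⟨w, hw, hwv⟩ := hv
  have hd : v - w ∈ LinearMap.ker cor := by
    rw [LinearMap.mem_ker, map_sub, hwv, sub_self]
  have h1 : (⨆ i, LinearMap.range (t i)) ≤ ⨆ a, LinearMap.range (F a) :=
    iSup_le fun i => le_iSup (fun a => LinearMap.range (F a)) (Sum.inl i)
  have h2 : (⨆ j, LinearMap.range (s j)) ≤ ⨆ a, LinearMap.range (F a) :=
    iSup_le fun j => le_iSup (fun a => LinearMap.range (F a)) (Sum.inr j)
  have : v = w + (v - w) := by abel
  rw [this]
  exact Submodule.add_mem _ (h1 hw) (h2 (hker hd))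

end Fermat.Agent.S38.H59
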