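import Fermat.Agent.S38.H59.TWMinSpec
import Fermat.Agent.S38.H59.CtrlCore
import Fermat.Agent.S59.MFree.Main
import Fermat.Agent.S41.H761.HK

/-!
# Row HARD, leaf TW-MIN, CTRL: control modulo `p` without idempotents (helper59)

`ctrlOf : CtrlOfStatement`, i.e. `HeckeKerCommStatement → TorsionTwelveStatement →
CtrlModPStatement`: for `p ≥ 5` and a `p`-group quotient `κ : Γ₀(M) ↠ D` through the lower right
entry, an eigensystem occurring in `Hom(ker κ, 𝔽_p)` occurs in `Hom(Γ₀(M), 𝔽_p)`.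

Instantiation of `ctrl_core_h59` (`CtrlCore.lean`) with
`V = Hom(ker κ, 𝔽_p)`, `Y = Hom(Γ₀(M), 𝔽_p)`, `cor = MFree.cor κ` (onto by `H761.corSurj`, kernel
`I_D V` by `H761.kerCor`), `t = heckeKer - a`, `T = heckeTransfer - a`, `s d = ⟨d⟩ - 1`
(nilpotent: `D` is a `p`-group and the characteristic is `p`).
-/

set_option autoImplicit false
set_option linter.style.haveILetI false
set_option linter.unusedSectionVars false

namespace Fermat.Agent.S38.H59

open CongruenceSubgroup Matrix.SpecialLinearGroup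
open Fermat.Agent.S29.H642 Fermat.Agent.S41.Spec
open Fermat.Agent.S59.MFree Fermat.Agent.S59.MFree.H587 Fermat.Agent.S59.MFree.H941
open scoped MatrixGroups

section Lin

variable {M : ℕ}

/-- `T_ℓ` on `Hom(Γ₀(M), O)`, `O`-linear. -/
noncomputable def heckeTransferLin59 {ℓ : ℕ} [Fact ℓ.Prime] (hℓ : ¬ ℓ ∣ M) (O : Type*)
    [CommRing O] : (Additive (Gamma0 M) →+ O) →ₗ[O] (Additive (Gamma0 M) →+ O) where
  toFun φ := heckeTransfer hℓ φ
  map_add' := heckeTransfer_add hℓ
  map_smul' a φ := by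
    have h1 : a • φ = (AddMonoidHom.mulLeft a).comp φ := by
      ext h
      rfl
    have h2 : a • heckeTransfer hℓ φ = (AddMonoidHom.mulLeft a).comp (heckeTransfer hℓ φ) := by
      ext h
      rfl
    rw [RingHom.id_apply, h1, h2, heckeTransfer_comp]

@[simp] theorem heckeTransferLin59_apply {ℓ : ℕ} [Fact ℓ.Prime] (hℓ : ¬ ℓ ∣ M) (O : Type*)
    [CommRing O] (φ : Additive (Gamma0 M) →+ O) :
    heckeTransferLin59 hℓ O φ = heckeTransfer hℓ φ := rfl

variable {D : Type} [Group D] [Fintype D] (κ : Gamma0 M →* D)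

/-- `cor`, `O`-linear. -/
noncomputable def corLin59 (O : Type*) [CommRing O] :
    (Additive (kerSub κ) →+ O) →ₗ[O] (Additive (Gamma0 M) →+ O) where
  toFun := cor κ
  map_add' := cor_add κ
  map_smul' a x := cor_smul κ a x

@[simp] theorem corLin59_apply (O : Type*) [CommRing O] (x : Additive (kerSub κ) →+ O) :
    corLin59 κ O x = cor κ x := rfl

/-- Powers of the diamond operators. -/
theorem conjL_pow59 {O : Type*} [CommRing O] (g : Gamma0 M) (m : ℕ) :
    (H761.conjL (O := O) κ g) ^ m = H761.conjL κ (g ^ m) := by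
  induction m with
  | zero =>
    apply LinearMap.ext
    intro x
    rw [pow_zero, pow_zero, H761.conjL_apply, H761.conjAct_one]
    rfl
  | succ m ih =>
    apply LinearMap.ext
    intro x
    rw [pow_succ, ih, pow_succ, H761.conjL_apply, H761.conjAct_mul]
    rfl

end Lin

/-- Homomorphisms to `𝔽_p`, `p ≥ 5`, vanish on the elements `g` with `g ^ 12 = 1`. -/
theorem apply_eq_zero_of_pow_twelve59 {p : ℕ} [Fact p.Prime] (hp5 : 5 ≤ p) {G : Type*} [Group G]
    (φ : Additive G →+ ZMod p) (g : G) (hg : g ^ 12 = 1) : φ (Additive.ofMul g) = 0 := by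
  have h1 : (12 : ℕ) • φ (Additive.ofMul g) = 0 := by
    rw [← map_nsmul, ← ofMul_pow, hg, ofMul_one, map_zero]
  rw [nsmul_eq_mul] at h1
  rcases mul_eq_zero.mp h1 with h | h
  · exfalso
    have hp : p.Prime := Fact.out
    have hdvd : p ∣ 12 := (ZMod.natCast_eq_zero_iff 12 p).mp h
    have h12 : (12 : ℕ) = 2 ^ 2 * 3 := by norm_num
    rw [h12] at hdvd
    rcases (Nat.Prime.dvd_mul hp).mp hdvd with h2 | h3
    · have := (Nat.prime_dvd_prime_iff_eq hp Nat.prime_two).mp (hp.dvd_of_dvd_pow h2)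
      omega
    · have := (Nat.prime_dvd_prime_iff_eq hp Nat.prime_three).mp h3
      omega
  · exact h

theorem commute_sub_one59 {E : Type*} [Ring E] (a b : E) (h : Commute a b) :
    Commute (a - 1) (b - 1) :=
  (h.sub_right (Commute.one_right a)).sub_left ((Commute.one_left b).sub_right (Commute.one_left 1))

theorem commute_sub_smul59 {k E : Type*} [CommRing k] [Ring E] [Algebra k E] (a b : E)
    (c c' : k) (h : Commute a b) : Commute (a - c • 1) (b - c' • 1) :=
  (h.sub_right ((Commute.one_right a).smul_right c')).sub_left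
    (((Commute.one_left b).smul_left c).sub_right
      (((Commute.one_left (1 : E)).smul_left c).smul_right c'))

theorem commute_sub_smul_sub_one59 {k E : Type*} [CommRing k] [Ring E] [Algebra k E] (a b : E)
    (c : k) (h : Commute a b) : Commute (a - c • 1) (b - 1) :=
  (h.sub_right (Commute.one_right a)).sub_left
    (((Commute.one_left b).smul_left c).sub_right ((Commute.one_left (1 : E)).smul_left c))

theorem isNilpotent_sub_one59 {E : Type*} [Ring E] (p n : ℕ) [Fact p.Prime] [CharP E p] (a : E)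
    (h : a ^ p ^ n = 1) : IsNilpotent (a - 1) :=
  ⟨p ^ n, by rw [sub_pow_expChar_pow_of_commute p n (Commute.one_right a), one_pow, h, sub_self]⟩

/-- **CTRL** from COMM and TORS. -/
theorem ctrlOf : CtrlOfStatement := by
  intro hComm hTors p _ hp5 M hM D _ _ κ hΓ1 hκ hcard good a hocc
  classical
  obtain ⟨x, hx0, hxT⟩ := hocc
  obtain ⟨n, hn⟩ := hcard
  haveI : NeZero M := ⟨hM⟩
  have hp : p.Prime := Fact.out
  -- torsion
  have hfin12 : ∀ g : Gamma0 M, IsOfFinOrder g → g ^ 12 = 1 := by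
    intro g hg
    have h1 : IsOfFinOrder ((Gamma0 M).subtype g) := (Gamma0 M).subtype.isOfFinOrder hg
    have h2 := hTors _ h1
    apply Subtype.ext
    rw [Subgroup.coe_pow]
    exact h2
  have hcop : Nat.Coprime 12 (p ^ n) := by
    apply Nat.Coprime.pow_right
    rw [Nat.coprime_comm, Nat.Prime.coprime_iff_not_dvd hp]
    intro hdvd
    have h12 : (12 : ℕ) = 2 ^ 2 * 3 := by norm_num
    rw [h12] at hdvd
    rcases (Nat.Prime.dvd_mul hp).mp hdvd with h2 | h3
    · have := (Nat.prime_dvd_prime_iff_eq hp Nat.prime_two).mp (hp.dvd_of_dvd_pow h2)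
      omega
    · have := (Nat.prime_dvd_prime_iff_eq hp Nat.prime_three).mp h3
      omega
  have hpowD : ∀ d : D, d ^ (p ^ n) = 1 := fun d => by
    rw [← hn]
    exact pow_card_eq_one
  have hell : ∀ g : Gamma0 M, IsOfFinOrder g → κ g = 1 := by
    intro g hg
    have h1 : κ g ^ 12 = 1 := by rw [← map_pow, hfin12 g hg, map_one]
    have h2 : κ g ^ (p ^ n) = 1 := hpowD _
    have h3 := Nat.dvd_gcd (orderOf_dvd_of_pow_eq_one h1) (orderOf_dvd_of_pow_eq_one h2)
    rw [Nat.Coprime.gcd_eq_one hcop, Nat.dvd_one] at h3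
    exact orderOf_eq_one_iff.mp h3
  have hneg1 : (-1 : SL(2, ℤ)) ∈ Gamma0 M := by
    rw [Gamma0_mem]
    simp
  have hneg1fin : IsOfFinOrder (⟨-1, hneg1⟩ : Gamma0 M) := by
    refine isOfFinOrder_iff_pow_eq_one.2 ⟨2, by norm_num, ?_⟩
    apply Subtype.ext
    simp
  have hneg : (-1 : SL(2, ℤ)) ∈ kerSub κ := mem_kerSub.mpr ⟨hneg1, hell _ hneg1fin⟩
  have httV : ∀ v : Additive (kerSub κ) →+ ZMod p, IsTorsionTrivial v := by
    intro v γ hγ
    apply apply_eq_zero_of_pow_twelve59 hp5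
    have h1 : IsOfFinOrder ((kerSub κ).subtype γ) := (kerSub κ).subtype.isOfFinOrder hγ
    have h2 := hTors _ h1
    apply Subtype.ext
    rw [Subgroup.coe_pow]
    exact h2
  have httY : ∀ y : Additive (Gamma0 M) →+ ZMod p, IsTorsionTrivial y := by
    intro y γ hγ
    exact apply_eq_zero_of_pow_twelve59 hp5 y γ (hfin12 γ hγ)
  -- finiteness
  haveI : (kerSub κ).FiniteIndex := H761.finiteIndex_kerSub κ
  have hfinHom : ∀ (Γ' : Subgroup SL(2, ℤ)) [Γ'.FiniteIndex],
      Module.Finite (ZMod p) (Additive Γ' →+ ZMod p) := by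
    intro Γ' _
    have := H761.fg_SL2Z_h761
    have : Group.FG Γ' := Subgroup.fg_of_index_ne_zero Γ'
    obtain ⟨S, hS, hfin⟩ := Group.fg_iff.mp this
    have : Finite S := hfin
    exact (H761.finite_free_of_injective (H761.evalOn (O := ZMod p) S)
      (H761.evalOn_injective S hS)).1
  haveI hVfin : Module.Finite (ZMod p) (Additive (kerSub κ) →+ ZMod p) := hfinHom _
  haveI hYfin : Module.Finite (ZMod p) (Additive (Gamma0 M) →+ ZMod p) := hfinHom _
  -- the operators
  let I : Type := {ℓ : ℕ // ℓ.Prime ∧ ¬ ℓ ∣ M ∧ good ℓ}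
  let t : I → Module.End (ZMod p) (Additive (kerSub κ) →+ ZMod p) := fun i =>
    haveI : Fact i.1.Prime := ⟨i.2.1⟩
    heckeKerLin i.2.2.1 κ hΓ1 (ZMod p) - ((a i.1 : ℤ) : ZMod p) • 1
  let T : I → Module.End (ZMod p) (Additive (Gamma0 M) →+ ZMod p) := fun i =>
    haveI : Fact i.1.Prime := ⟨i.2.1⟩
    heckeTransferLin59 i.2.2.1 (ZMod p) - ((a i.1 : ℤ) : ZMod p) • 1
  let sec : D → Gamma0 M := Function.surjInv hκ
  have hsec : ∀ d, κ (sec d) = d := Function.surjInv_eq hκ
  let s : D → Module.End (ZMod p) (Additive (kerSub κ) →+ ZMod p) := fun d =>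
    H761.conjL κ (sec d) - 1
  -- commutation
  have htt : ∀ i i', Commute (t i) (t i') := by
    intro i i'
    haveI : Fact i.1.Prime := ⟨i.2.1⟩
    haveI : Fact i'.1.Prime := ⟨i'.2.1⟩
    refine commute_sub_smul59 (E := Module.End (ZMod p) (Additive (kerSub κ) →+ ZMod p))
      (heckeKerLin i.2.2.1 κ hΓ1 (ZMod p)) (heckeKerLin i'.2.2.1 κ hΓ1 (ZMod p)) _ _ ?_
    apply LinearMap.ext
    intro φ
    exact hComm M i.1 i'.1 i.2.2.1 i'.2.2.1 hM D κ hΓ1 (ZMod p) φ
  have hTT : ∀ i i', Commute (T i) (T i') := by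
    intro i i'
    haveI : Fact i.1.Prime := ⟨i.2.1⟩
    haveI : Fact i'.1.Prime := ⟨i'.2.1⟩
    refine commute_sub_smul59 (E := Module.End (ZMod p) (Additive (Gamma0 M) →+ ZMod p))
      (heckeTransferLin59 i.2.2.1 (ZMod p)) (heckeTransferLin59 i'.2.2.1 (ZMod p)) _ _ ?_
    apply LinearMap.ext
    intro φ
    exact Fermat.Agent.S41.H761.heckeComm M i.1 i'.1 i.2.2.1 i'.2.2.1 (ZMod p) φ
  have hconj_comm : ∀ g g' : Gamma0 M, Commute (H761.conjL (O := ZMod p) κ g)
      (H761.conjL κ g') := by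
    intro g g'
    apply LinearMap.ext
    intro φ
    show H761.conjL κ g (H761.conjL κ g' φ) = H761.conjL κ g' (H761.conjL κ g φ)
    rw [H761.conjL_apply, H761.conjL_apply, H761.conjL_apply, H761.conjL_apply,
      ← H761.conjAct_mul, ← H761.conjAct_mul]
    apply H57.conjAct_congr57
    apply kappa_congr κ hΓ1
    rw [eisD_mul, eisD_mul, mul_comm]
  have hss : ∀ d d', Commute (s d) (s d') := by
    intro d d'
    exact commute_sub_one59 (E := Module.End (ZMod p) (Additive (kerSub κ) →+ ZMod p))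
      (H761.conjL κ (sec d)) (H761.conjL κ (sec d')) (hconj_comm _ _)
  have hts : ∀ i d, Commute (t i) (s d) := by
    intro i d
    haveI : Fact i.1.Prime := ⟨i.2.1⟩
    have h1 : Commute (heckeKerLin i.2.2.1 κ hΓ1 (ZMod p)) (H761.conjL κ (sec d)) := by
      apply LinearMap.ext
      intro φ
      exact heckeKerOf_conjAct i.2.2.1 κ hΓ1 (wStd i.2.2.1) (i.1 : ZMod M)
        (isNormalising_wStd i.2.2.1) (sec d) φ
    exact commute_sub_smul_sub_one59 (E := Module.End (ZMod p) (Additive (kerSub κ) →+ ZMod p))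
      (heckeKerLin i.2.2.1 κ hΓ1 (ZMod p)) (H761.conjL κ (sec d)) _ h1
  -- nilpotency
  have hnil : ∀ d, IsNilpotent (s d) := by
    intro d
    haveI : Nontrivial (Module.End (ZMod p) (Additive (kerSub κ) →+ ZMod p)) :=
      ⟨⟨1, 0, fun h => hx0 (by
        have := congrArg (fun T : Module.End (ZMod p) (Additive (kerSub κ) →+ ZMod p) => T x) h
        simpa using this)⟩⟩
    haveI : CharP (Module.End (ZMod p) (Additive (kerSub κ) →+ ZMod p)) p :=
      charP_of_injective_algebraMap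
        (algebraMap (ZMod p) (Module.End (ZMod p) (Additive (kerSub κ) →+ ZMod p))).injective p
    refine isNilpotent_sub_one59 (E := Module.End (ZMod p) (Additive (kerSub κ) →+ ZMod p))
      p n (H761.conjL κ (sec d)) ?_
    rw [conjL_pow59]
    apply LinearMap.ext
    intro φ
    rw [H761.conjL_apply, Module.End.one_apply]
    have h1 : κ (sec d ^ p ^ n) = κ 1 := by rw [map_pow, hpowD, map_one]
    rw [H57.conjAct_congr57 κ φ h1.symm, H761.conjAct_one]
  -- `cor`
  have hcor : ∀ i v, corLin59 κ (ZMod p) (t i v) = T i (corLin59 κ (ZMod p) v) := by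
    intro i v
    haveI : Fact i.1.Prime := ⟨i.2.1⟩
    show cor κ (heckeKerLin i.2.2.1 κ hΓ1 (ZMod p) v - ((a i.1 : ℤ) : ZMod p) • v) =
      heckeTransfer i.2.2.1 (cor κ v) - ((a i.1 : ℤ) : ZMod p) • cor κ v
    rw [cor_sub, cor_smul]
    congr 1
    exact cor_heckeKerOf i.2.2.1 κ hΓ1 (wStd i.2.2.1) (i.1 : ZMod M)
      (isNormalising_wStd i.2.2.1) v
  have hsurj : Function.Surjective (corLin59 κ (ZMod p)) := by
    intro y
    obtain ⟨v, -, hv⟩ := H761.corSurj (Gamma0 M) D κ hneg (ZMod p) y (httY y)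
    exact ⟨v, hv⟩
  have hker : LinearMap.ker (corLin59 κ (ZMod p)) ≤ ⨆ d, LinearMap.range (s d) := by
    intro v hv
    have hv0 : cor κ v = 0 := hv
    have hmem := H761.kerCor (Gamma0 M) D κ hneg hell (ZMod p) v (httV v) hv0
    unfold augSub at hmem
    refine AddSubgroup.closure_induction
      (p := fun w _ => w ∈ ⨆ d, LinearMap.range (s d)) ?_ ?_ ?_ ?_ hmem
    · rintro w ⟨g, y, -, rfl⟩
      refine Submodule.mem_iSup_of_mem (κ g) ⟨y, ?_⟩
      show H761.conjL κ (sec (κ g)) y - y = conjAct κ g y - y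
      rw [H761.conjL_apply, H57.conjAct_congr57 κ y (hsec (κ g)).symm]
    · exact Submodule.zero_mem _
    · intro w w' _ _ hw hw'
      exact Submodule.add_mem _ hw hw'
    · intro w _ hw
      exact Submodule.neg_mem _ hw
  -- conclusion
  have hxt : ∀ i, t i x = 0 := by
    intro i
    haveI : Fact i.1.Prime := ⟨i.2.1⟩
    show heckeKerLin i.2.2.1 κ hΓ1 (ZMod p) x - ((a i.1 : ℤ) : ZMod p) • x = 0
    rw [sub_eq_zero]
    exact hxT i.1 i.2.2.1 i.2.2.2
  obtain ⟨y, hy0, hyT⟩ := ctrl_core_h59 t s T (corLin59 κ (ZMod p)) htt hts hss hTT hnil hcor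
    hsurj hker x hx0 hxt
  refine ⟨y, hy0, fun ℓ _ hℓ hg => ?_⟩
  have h := hyT ⟨ℓ, Fact.out, hℓ, hg⟩
  have h' : heckeTransfer hℓ y - ((a ℓ : ℤ) : ZMod p) • y = 0 := h
  exact sub_eq_zero.mp h'

end Fermat.Agent.S38.H59
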