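import Mathlib

/-!
# Row HARD, leaf TW-MIN, TORS: elements of finite order of `SL(2,ℤ)` (helper59) — Mathlib only

`pow_twelve_eq_one_of_isOfFinOrder_h59 : IsOfFinOrder g → g ^ 12 = 1` for `g : SL(2,ℤ)`.

Cayley–Hamilton `A² = t A - 1`, `t = tr A`.  If `|t| ≥ 3` the absolute values of the traces of the
powers of `A` increase strictly; if `t = ± 2` then `± A` is unipotent, hence `= 1`; if
`t ∈ {0, 1, -1}` then `A⁴ = 1`, `A³ = -1`, `A³ = 1`.
-/

set_option autoImplicit false

namespace Fermat.Agent.S38.H59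

open Matrix

/-- Cayley–Hamilton for `2 × 2` integral matrices of determinant `1`. -/
theorem mul_self_eq_h59 (A : Matrix (Fin 2) (Fin 2) ℤ) (hA : A.det = 1) :
    A * A = A.trace • A - 1 := by
  rw [Matrix.det_fin_two] at hA
  ext i j
  fin_cases i <;> fin_cases j <;>
    simp only [Matrix.mul_apply, Fin.sum_univ_two, Matrix.trace_fin_two, Matrix.sub_apply,
      Matrix.smul_apply, smul_eq_mul, Matrix.one_apply, Fin.zero_eta, Fin.mk_one, Fin.isValue,
      if_true, one_ne_zero, zero_ne_one, if_false] <;>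
    first | ring1 | linear_combination -hA

theorem pow_add_two_eq_h59 (A : Matrix (Fin 2) (Fin 2) ℤ) (hA : A.det = 1) (k : ℕ) :
    A ^ (k + 2) = A.trace • A ^ (k + 1) - A ^ k := by
  rw [pow_add, pow_two, mul_self_eq_h59 A hA, mul_sub, mul_one, Matrix.mul_smul, ← pow_succ]

/-- A unipotent integral matrix of finite order is `1`. -/
theorem eq_one_of_unipotent_h59 (B : Matrix (Fin 2) (Fin 2) ℤ) (hB : B * B = (2 : ℤ) • B - 1)
    (n : ℕ) (hn : 0 < n) (hBn : B ^ n = 1) : B = 1 := by
  have hN : (B - 1) * (B - 1) = 0 := by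
    rw [sub_mul, mul_sub, mul_sub, hB]
    simp only [mul_one, one_mul, two_smul]
    abel
  have hpow : ∀ m : ℕ, B ^ m = 1 + (m : ℤ) • (B - 1) := by
    intro m
    induction m with
    | zero => simp
    | succ m ih =>
      have hB2 : (B - 1) * B = B - 1 := by
        have h0 : (B - 1) * B = (B - 1) * (B - 1) + (B - 1) := by
          rw [mul_sub (B - 1) B 1, mul_one]
          abel
        rw [h0, hN, zero_add]
      rw [pow_succ, ih, add_mul, one_mul, Matrix.smul_mul, hB2]
      push_cast
      rw [add_smul, one_smul]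
      abel
  have h1 := hpow n
  rw [hBn] at h1
  have h2 : (n : ℤ) • (B - 1) = 0 := by
    have := h1
    rw [left_eq_add] at this
    exact this
  have h3 : B - 1 = 0 := by
    ext i j
    have := congrFun (congrFun h2 i) j
    simp only [Matrix.smul_apply, smul_eq_mul, Matrix.zero_apply] at this
    rcases mul_eq_zero.mp this with h | h
    · exact absurd (by exact_mod_cast h) hn.ne'
    · exact h
  exact sub_eq_zero.mp h3

/-- If `|tr A| ≥ 3` the absolute values of the traces of the powers increase strictly. -/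
theorem abs_trace_pow_lt_h59 (A : Matrix (Fin 2) (Fin 2) ℤ) (hA : A.det = 1)
    (ht : 3 ≤ |A.trace|) (k : ℕ) : |(A ^ k).trace| < |(A ^ (k + 1)).trace| := by
  induction k with
  | zero =>
    simp only [pow_zero, zero_add, pow_one, Matrix.trace_one, Fintype.card_fin]
    have : |((2 : ℕ) : ℤ)| = 2 := by norm_num
    rw [this]
    omega
  | succ k ih =>
    have h1 : (A ^ (k + 2)).trace = A.trace * (A ^ (k + 1)).trace - (A ^ k).trace := by
      rw [pow_add_two_eq_h59 A hA, Matrix.trace_sub, Matrix.trace_smul, smul_eq_mul]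
    rw [show k + 1 + 1 = k + 2 from rfl, h1]
    have h2 : |A.trace * (A ^ (k + 1)).trace| - |(A ^ k).trace| ≤
        |A.trace * (A ^ (k + 1)).trace - (A ^ k).trace| := abs_sub_abs_le_abs_sub _ _
    rw [abs_mul] at h2
    have h3 : 0 ≤ |(A ^ k).trace| := abs_nonneg _
    have h4 : 3 * |(A ^ (k + 1)).trace| ≤ |A.trace| * |(A ^ (k + 1)).trace| :=
      mul_le_mul_of_nonneg_right ht (abs_nonneg _)
    linarith

theorem three_le_abs_trace_pow_h59 (A : Matrix (Fin 2) (Fin 2) ℤ) (hA : A.det = 1)
    (ht : 3 ≤ |A.trace|) (k : ℕ) : 3 ≤ |(A ^ (k + 1)).trace| := by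
  induction k with
  | zero => simpa using ht
  | succ k ih =>
    have := abs_trace_pow_lt_h59 A hA ht (k + 1)
    linarith

/-- **TORS** for matrices. -/
theorem matrix_pow_twelve_h59 (A : Matrix (Fin 2) (Fin 2) ℤ) (hA : A.det = 1)
    (n : ℕ) (hn : 0 < n) (hAn : A ^ n = 1) : A ^ 12 = 1 := by
  have hCH := mul_self_eq_h59 A hA
  by_cases ht : 3 ≤ |A.trace|
  · exfalso
    obtain ⟨m, rfl⟩ : ∃ m, n = m + 1 := Nat.exists_eq_succ_of_ne_zero hn.ne'
    have h1 := three_le_abs_trace_pow_h59 A hA ht m
    rw [hAn, Matrix.trace_one, Fintype.card_fin] at h1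
    have : |((2 : ℕ) : ℤ)| = 2 := by norm_num
    rw [this] at h1
    omega
  · push Not at ht
    have hlo : -2 ≤ A.trace := by
      have := neg_abs_le A.trace
      omega
    have hhi : A.trace ≤ 2 := by
      have := le_abs_self A.trace
      omega
    obtain h | h | h | h | h : A.trace = -2 ∨ A.trace = -1 ∨ A.trace = 0 ∨ A.trace = 1 ∨
        A.trace = 2 := by omega
    · -- `-A` is unipotent
      have hB : (-A) * (-A) = (2 : ℤ) • (-A) - 1 := by
        rw [neg_mul_neg, hCH, h]
        simp only [smul_neg, neg_smul]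
      have hBn : (-A) ^ (2 * n) = 1 := by
        rw [pow_mul, neg_pow_two, ← pow_mul, mul_comm, pow_mul, hAn, one_pow]
      have h1 := eq_one_of_unipotent_h59 (-A) hB (2 * n) (by omega) hBn
      have h2 : A = -1 := by rw [← h1, neg_neg]
      rw [h2]
      exact Even.neg_one_pow (by decide)
    · -- `A³ = 1`
      rw [h] at hCH
      have h3 : A ^ 3 = 1 := by
        rw [pow_succ, pow_two, hCH, sub_mul, one_mul, Matrix.smul_mul, hCH]
        simp only [neg_smul, one_smul, neg_sub]
        abel
      rw [show 12 = 3 * 4 from rfl, pow_mul, h3, one_pow]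
    · -- `A² = -1`
      rw [h] at hCH
      have h2 : A ^ 2 = -1 := by
        rw [pow_two, hCH, zero_smul, zero_sub]
      rw [show 12 = 2 * 6 from rfl, pow_mul, h2]
      exact Even.neg_one_pow (by decide)
    · -- `A³ = -1`
      rw [h] at hCH
      have h3 : A ^ 3 = -1 := by
        rw [pow_succ, pow_two, hCH, sub_mul, one_mul, Matrix.smul_mul, hCH]
        simp only [one_smul]
        abel
      rw [show 12 = 3 * 4 from rfl, pow_mul, h3]
      exact Even.neg_one_pow (by decide)
    · -- `A` is unipotent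
      rw [h] at hCH
      have h1 := eq_one_of_unipotent_h59 A hCH n hn hAn
      rw [h1, one_pow]

/-- **TORS.**  An element of finite order of `SL(2,ℤ)` has order dividing `12`. -/
theorem pow_twelve_eq_one_of_isOfFinOrder_h59 (g : Matrix.SpecialLinearGroup (Fin 2) ℤ)
    (hg : IsOfFinOrder g) : g ^ 12 = 1 := by
  obtain ⟨n, hn, hgn⟩ := isOfFinOrder_iff_pow_eq_one.mp hg
  apply Subtype.ext
  rw [Matrix.SpecialLinearGroup.coe_pow, Matrix.SpecialLinearGroup.coe_one]
  refine matrix_pow_twelve_h59 g.1 g.2 n hn ?_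
  have := congrArg Subtype.val hgn
  rwa [Matrix.SpecialLinearGroup.coe_pow, Matrix.SpecialLinearGroup.coe_one] at this

end Fermat.Agent.S38.H59
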