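import Fermat.Agent.S38.H59.TWMinSpec
import Fermat.Agent.S38.H59.CtrlCore
import Fermat.Agent.S38.H59.Torsion

/-!
# Row HARD, leaf TW-MIN: the two Mathlib-only leaves ALG and TORS in the frozen form (helper59)

`commKerRange : CommKerRangeStatement`, `torsionTwelve : TorsionTwelveStatement`.
-/

set_option autoImplicit false

namespace Fermat.Agent.S38.H59

open scoped MatrixGroups

/-- **TORS.** -/
theorem torsionTwelve : TorsionTwelveStatement :=
  fun g hg => pow_twelve_eq_one_of_isOfFinOrder_h59 g hg

/-- **ALG.** -/
theorem commKerRange : CommKerRangeStatement := by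
  intro k _ V _ _ _ ι f hf
  exact iSup_range_eq_top_iff_h59 f hf

end Fermat.Agent.S38.H59
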