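import Mathlib

/-!
# Row HARD, leaf IA-MINZERO, algebra (helper59) — Mathlib only

* `le_of_le_sup_map_nilp59` : let `s i` be commuting endomorphisms of `X` preserving the submodules
  `W` and `B`, each of them with a power mapping `W` into `B`.  If `W ≤ ∑_{i ∈ F} s_i W + B` for a
  FINITE set `F`, then `W ≤ B`.  (Nakayama for the augmentation ideal of a finite abelian
  `p`-group, without group rings, local rings or finite generation.)
* `exists_sub_one_pow_eq59` : `(δ - 1)^(p^n) = p • r` if `δ^(p^n) = 1`, `p` odd.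
-/

set_option autoImplicit false

namespace Fermat.Agent.S38.H59

section Nak

variable {R X ι : Type*} [CommRing R] [AddCommGroup X] [Module R X]

theorem map_iSup_finset_le59 (s : ι → Module.End R X) (hcomm : ∀ i j, Commute (s i) (s j))
    (W : Submodule R X) (hW : ∀ i, W.map (s i) ≤ W) (F : Finset ι) (a : ι) :
    (⨆ i ∈ F, W.map (s i)).map (s a) ≤ ⨆ i ∈ F, W.map (s i) := by
  rw [Submodule.map_iSup]
  refine iSup_le fun i => ?_
  rw [Submodule.map_iSup]
  refine iSup_le fun hi => ?_
  refine le_trans ?_ (le_iSup₂ (f := fun i (_ : i ∈ F) => W.map (s i)) i hi)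
  rintro x ⟨y, ⟨w, hw, rfl⟩, rfl⟩
  refine ⟨s a w, hW a ⟨w, hw, rfl⟩, ?_⟩
  have := congrArg (fun f : Module.End R X => f w) (hcomm i a).eq
  simpa using this

/-- **Nakayama for a finite commuting family of "nilpotent modulo `B`" operators.** -/
theorem le_of_le_sup_map_nilp59 (s : ι → Module.End R X) (hcomm : ∀ i j, Commute (s i) (s j))
    (W B : Submodule R X) (hW : ∀ i, W.map (s i) ≤ W) (hB : ∀ i, B.map (s i) ≤ B)
    (hnil : ∀ i, ∃ n : ℕ, W.map ((s i) ^ n) ≤ B) (F : Finset ι)
    (h : W ≤ (⨆ i ∈ F, W.map (s i)) ⊔ B) : W ≤ B := by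
  classical
  induction F using Finset.induction_on with
  | empty =>
    simpa using h
  | insert a F ha ih =>
    apply ih
    set C : Submodule R X := (⨆ i ∈ F, W.map (s i)) ⊔ B with hC
    have hCmap : C.map (s a) ≤ C := by
      rw [hC, Submodule.map_sup]
      exact sup_le_sup (map_iSup_finset_le59 s hcomm W hW F a) (hB a)
    have h' : W ≤ W.map (s a) ⊔ C := by
      refine le_trans h ?_
      rw [Finset.iSup_insert, hC, sup_assoc]
    have key : ∀ n : ℕ, W ≤ W.map ((s a) ^ n) ⊔ C := by
      intro n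
      induction n with
      | zero =>
        intro x hx
        exact Submodule.mem_sup_left ⟨x, hx, by simp⟩
      | succ n ihn =>
        refine le_trans h' (sup_le ?_ le_sup_right)
        have h1 : W.map (s a) ≤ (W.map ((s a) ^ n) ⊔ C).map (s a) := Submodule.map_mono ihn
        refine le_trans h1 ?_
        rw [Submodule.map_sup]
        refine sup_le_sup ?_ hCmap
        rintro x ⟨y, ⟨w, hw, rfl⟩, rfl⟩
        exact ⟨w, hw, by rw [pow_succ', Module.End.mul_apply]⟩
    obtain ⟨n, hn⟩ := hnil a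
    exact le_trans (key n) (sup_le (le_trans hn le_sup_right) le_rfl)

end Nak

section Pow

variable {E : Type*} [Ring E]

/-- `(δ - 1)^(p^n) = p • r` if `δ^(p^n) = 1` and `p` is odd. -/
theorem exists_sub_one_pow_eq59 {p : ℕ} (hp : p.Prime) (hp2 : p ≠ 2) (δ : E) (n : ℕ)
    (hδ : δ ^ p ^ n = 1) : ∃ r : E, (δ - 1) ^ p ^ n = (p : E) * r ∧ Commute δ r := by
  have hc : Commute δ (-1 : E) := (Commute.one_right δ).neg_right
  have h := hc.add_pow_prime_pow_eq hp n
  have hodd : Odd (p ^ n) := (hp.odd_of_ne_two hp2).pow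
  rw [← sub_eq_add_neg, hδ, hodd.neg_one_pow, add_neg_cancel, zero_add] at h
  refine ⟨δ * (-1) * ∑ k ∈ Finset.Ioo 0 (p ^ n),
      δ ^ (k - 1) * (-1) ^ (p ^ n - k - 1) * ↑((p ^ n).choose k / p), ?_, ?_⟩
  · rw [h]
    simp only [mul_assoc]
  · refine (Commute.mul_right (Commute.refl δ) hc).mul_right ?_
    refine Commute.sum_right _ _ _ fun k _ => ?_
    refine Commute.mul_right (Commute.mul_right ((Commute.refl δ).pow_right _) (hc.pow_right _)) ?_
    exact (Nat.cast_commute _ _).symm

end Pow

end Fermat.Agent.S38.H59
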