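import Fermat.Agent.S38.H59.MinZeroAlg
import Fermat.Agent.S38.H59.CtrlModP
import Fermat.Agent.S38.H59.LeavesMathlib

/-!
# Row HARD, leaf IA-MINZERO, piece Z4 = KERCOR-LOC (helper59)

`eq_zero_of_cor_eq_zero59` : `p ≥ 5`, `κ : Γ₀(M) ↠ D` onto a finite `p`-group, trivial on
`{d ≡ 1 mod M}`; `𝒪` a domain of characteristic `0`, `ϖ ∣ p`, `𝒪` `ϖ`-adically separated; `e` a
projector of `X = Hom(ker κ, 𝒪)` commuting with the diamond operators `conjAct κ g`.
If `cor` vanishes on `e X`, then `e X = 0`.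

NO freeness, NO Hecke operators: `ker cor = I_D X` (`MFree.H761.kerCor`, (Ell) from TORS), so
`V = e X ⊆ I_D V`; `(δ - 1)^{p^n} ∈ p · End(X)`; finite induction over `D`
(`le_of_le_sup_map_nilp59`) gives `V ⊆ ϖ V`.
(Drop-in replacement of `S38.H719.eH_eq_zero_of_cor_eq_zero`, which needs `FreeConclusion`.)
-/

set_option autoImplicit false
set_option linter.style.haveILetI false
set_option linter.unusedSectionVars false

namespace Fermat.Agent.S38.H59

open CongruenceSubgroup Matrix.SpecialLinearGroup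
open Fermat.Agent.S59.MFree Fermat.Agent.S59.MFree.H587 Fermat.Agent.S59.MFree.H941
open scoped MatrixGroups

/-- **Z4 = KERCOR-LOC.** -/
theorem eq_zero_of_cor_eq_zero59 {p : ℕ} [Fact p.Prime] (hp5 : 5 ≤ p) {M : ℕ} (hM : M ≠ 0)
    {D : Type} [Group D] [Fintype D] (κ : Gamma0 M →* D)
    (hΓ1 : ∀ γ : Gamma0 M, ((((γ : SL(2, ℤ)) 1 1 : ℤ)) : ZMod M) = 1 → κ γ = 1)
    (hκ : Function.Surjective κ) (hcard : ∃ n : ℕ, Fintype.card D = p ^ n)
    {𝒪 : Type} [CommRing 𝒪] [IsDomain 𝒪] [CharZero 𝒪] (ϖ : 𝒪) (hpϖ : ϖ ∣ (p : 𝒪))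
    (hsep : ∀ a : 𝒪, (∀ n : ℕ, ϖ ^ n ∣ a) → a = 0)
    (e : (Additive (kerSub κ) →+ 𝒪) →ₗ[𝒪] (Additive (kerSub κ) →+ 𝒪))
    (he : ∀ x, e (e x) = e x)
    (hcomm : ∀ (g : Gamma0 M) x, e (conjAct κ g x) = conjAct κ g (e x))
    (hcor : ∀ x, e x = x → cor κ x = 0) :
    ∀ x, e x = x → x = 0 := by
  classical
  obtain ⟨n, hn⟩ := hcard
  haveI : NeZero M := ⟨hM⟩
  have hp : p.Prime := Fact.out
  have hp2 : p ≠ 2 := by omega
  have hTors := torsionTwelve
  -- torsion
  have hfin12 : ∀ g : Gamma0 M, IsOfFinOrder g → g ^ 12 = 1 := by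
    intro g hg
    have h1 : IsOfFinOrder ((Gamma0 M).subtype g) := (Gamma0 M).subtype.isOfFinOrder hg
    have h2 := hTors _ h1
    apply Subtype.ext
    rw [Subgroup.coe_pow]
    exact h2
  have hcop : Nat.Coprime 12 (p ^ n) := by
    apply Nat.Coprime.pow_right
    rw [Nat.coprime_comm, Nat.Prime.coprime_iff_not_dvd hp]
    intro hdvd
    have h12 : (12 : ℕ) = 2 ^ 2 * 3 := by norm_num
    rw [h12] at hdvd
    rcases (Nat.Prime.dvd_mul hp).mp hdvd with h2 | h3
    · have := (Nat.prime_dvd_prime_iff_eq hp Nat.prime_two).mp (hp.dvd_of_dvd_pow h2)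
      omega
    · have := (Nat.prime_dvd_prime_iff_eq hp Nat.prime_three).mp h3
      omega
  have hpowD : ∀ d : D, d ^ (p ^ n) = 1 := fun d => by
    rw [← hn]
    exact pow_card_eq_one
  have hell : ∀ g : Gamma0 M, IsOfFinOrder g → κ g = 1 := by
    intro g hg
    have h1 : κ g ^ 12 = 1 := by rw [← map_pow, hfin12 g hg, map_one]
    have h2 : κ g ^ (p ^ n) = 1 := hpowD _
    have h3 := Nat.dvd_gcd (orderOf_dvd_of_pow_eq_one h1) (orderOf_dvd_of_pow_eq_one h2)
    rw [Nat.Coprime.gcd_eq_one hcop, Nat.dvd_one] at h3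
    exact orderOf_eq_one_iff.mp h3
  have hneg1 : (-1 : SL(2, ℤ)) ∈ Gamma0 M := by
    rw [Gamma0_mem]
    simp
  have hneg1fin : IsOfFinOrder (⟨-1, hneg1⟩ : Gamma0 M) := by
    refine isOfFinOrder_iff_pow_eq_one.2 ⟨2, by norm_num, ?_⟩
    apply Subtype.ext
    simp
  have hneg : (-1 : SL(2, ℤ)) ∈ kerSub κ := mem_kerSub.mpr ⟨hneg1, hell _ hneg1fin⟩
  have httV : ∀ v : Additive (kerSub κ) →+ 𝒪, IsTorsionTrivial v := by
    intro v γ hγ
    obtain ⟨m, hm, hγm⟩ := isOfFinOrder_iff_pow_eq_one.mp hγ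
    have h1 : (m : ℕ) • v (Additive.ofMul γ) = 0 := by
      rw [← map_nsmul, ← ofMul_pow, hγm, ofMul_one, map_zero]
    rw [nsmul_eq_mul] at h1
    rcases mul_eq_zero.mp h1 with h | h
    · exact absurd (Nat.cast_eq_zero.mp h) hm.ne'
    · exact h
  -- the operators
  let X : Type := Additive (kerSub κ) →+ 𝒪
  let sec : D → Gamma0 M := Function.surjInv hκ
  have hsec : ∀ d, κ (sec d) = d := Function.surjInv_eq hκ
  let δ : D → Module.End 𝒪 X := fun d => H761.conjL κ (sec d)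
  let s : D → Module.End 𝒪 X := fun d => δ d - 1
  let V : Submodule 𝒪 X := LinearMap.range e
  let B : Submodule 𝒪 X := V.map (ϖ • (1 : Module.End 𝒪 X))
  have hVe : ∀ x ∈ V, e x = x := by
    rintro x ⟨y, rfl⟩
    exact he y
  have heV : ∀ x, e x ∈ V := fun x => ⟨x, rfl⟩
  have hconj_comm : ∀ g g' : Gamma0 M, Commute (H761.conjL (O := 𝒪) κ g)
      (H761.conjL κ g') := by
    intro g g'
    apply LinearMap.ext
    intro φ
    show H761.conjL κ g (H761.conjL κ g' φ) = H761.conjL κ g' (H761.conjL κ g φ)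
    rw [H761.conjL_apply, H761.conjL_apply, H761.conjL_apply, H761.conjL_apply,
      ← H761.conjAct_mul, ← H761.conjAct_mul]
    apply H57.conjAct_congr57
    apply kappa_congr κ hΓ1
    rw [eisD_mul, eisD_mul, mul_comm]
  have hss : ∀ d d', Commute (s d) (s d') := by
    intro d d'
    exact commute_sub_one59 (E := Module.End 𝒪 X) (δ d) (δ d') (hconj_comm _ _)
  have hes : ∀ d x, e (s d x) = s d (e x) := by
    intro d x
    show e (conjAct κ (sec d) x - x) = conjAct κ (sec d) (e x) - e x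
    rw [map_sub, hcomm]
  have hW : ∀ d, V.map (s d) ≤ V := by
    rintro d x ⟨y, hy, rfl⟩
    rw [← hVe y hy, ← hes]
    exact heV _
  have hB : ∀ d, B.map (s d) ≤ B := by
    rintro d x ⟨y, ⟨v, hv, rfl⟩, rfl⟩
    refine ⟨s d v, hW d ⟨v, hv, rfl⟩, ?_⟩
    simp only [LinearMap.smul_apply, Module.End.one_apply, map_smul]
  have hWpow : ∀ d (k : ℕ), V.map ((s d) ^ k) ≤ V := by
    intro d k
    induction k with
    | zero =>
      rintro x ⟨y, hy, rfl⟩
      simpa using hy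
    | succ k ih =>
      rintro x ⟨y, hy, rfl⟩
      rw [pow_succ, Module.End.mul_apply]
      exact ih ⟨s d y, hW d ⟨y, hy, rfl⟩, rfl⟩
  have hδpow : ∀ d, (δ d) ^ p ^ n = 1 := by
    intro d
    show (H761.conjL κ (sec d)) ^ p ^ n = 1
    rw [conjL_pow59]
    apply LinearMap.ext
    intro φ
    rw [H761.conjL_apply, Module.End.one_apply]
    have h1 : κ (sec d ^ p ^ n) = κ 1 := by rw [map_pow, hpowD, map_one]
    rw [H57.conjAct_congr57 κ φ h1.symm, H761.conjAct_one]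
  obtain ⟨u, hu⟩ := hpϖ
  have hnil : ∀ d, ∃ k : ℕ, V.map ((s d) ^ k) ≤ B := by
    intro d
    refine ⟨p ^ n, ?_⟩
    obtain ⟨r, hr, -⟩ := exists_sub_one_pow_eq59 (E := Module.End 𝒪 X) hp hp2 (δ d) n (hδpow d)
    rintro x ⟨v, hv, rfl⟩
    have h1 : ((s d) ^ p ^ n) v ∈ V := hWpow d _ ⟨v, hv, rfl⟩
    have h2 : ((s d) ^ p ^ n) v = (p : 𝒪) • r v := by
      show ((δ d - 1) ^ p ^ n) v = _
      rw [hr, Module.End.mul_apply]
      have h3 : ((p : ℕ) : Module.End 𝒪 X) = (p : 𝒪) • (1 : Module.End 𝒪 X) := by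
        rw [Nat.cast_smul_eq_nsmul, nsmul_eq_mul, mul_one]
      rw [h3, LinearMap.smul_apply, Module.End.one_apply]
    refine ⟨u • e (r v), V.smul_mem u (heV _), ?_⟩
    rw [LinearMap.smul_apply, Module.End.one_apply, smul_smul, ← hu, ← map_smul, ← h2]
    exact hVe _ h1
  have hker : V ≤ (⨆ d ∈ (Finset.univ : Finset D), V.map (s d)) ⊔ B := by
    intro x hx
    apply Submodule.mem_sup_left
    have hex : e x = x := hVe x hx
    have hmem := H761.kerCor (Gamma0 M) D κ hneg hell 𝒪 x (httV x) (hcor x hex)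
    unfold augSub at hmem
    rw [← hex]
    refine AddSubgroup.closure_induction
      (p := fun w _ => e w ∈ ⨆ d ∈ (Finset.univ : Finset D), V.map (s d)) ?_ ?_ ?_ ?_ hmem
    · rintro w ⟨g, y, -, rfl⟩
      refine Submodule.mem_iSup_of_mem (κ g)
        (Submodule.mem_iSup_of_mem (Finset.mem_univ _) ⟨e y, heV y, ?_⟩)
      show H761.conjL κ (sec (κ g)) (e y) - e y = e (conjAct κ g y - y)
      rw [H761.conjL_apply, H57.conjAct_congr57 κ (e y) (hsec (κ g)).symm, map_sub, hcomm]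
    · rw [map_zero]
      exact Submodule.zero_mem _
    · intro w w' _ _ hw hw'
      rw [map_add]
      exact Submodule.add_mem _ hw hw'
    · intro w _ hw
      rw [map_neg]
      exact Submodule.neg_mem _ hw
  have hVB : V ≤ B := le_of_le_sup_map_nilp59 s hss V B hW hB hnil Finset.univ hker
  -- separatedness
  have hdiv : ∀ k : ℕ, ∀ x ∈ V, ∃ z ∈ V, x = ϖ ^ k • z := by
    intro k
    induction k with
    | zero => exact fun x hx => ⟨x, hx, by simp⟩
    | succ k ih =>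
      intro x hx
      obtain ⟨z, hz, rfl⟩ := ih x hx
      obtain ⟨z', hz', hzz'⟩ := hVB hz
      refine ⟨z', hz', ?_⟩
      rw [← hzz', LinearMap.smul_apply, Module.End.one_apply, smul_smul, pow_succ]
  intro x hx
  have hxV : x ∈ V := ⟨x, hx⟩
  refine AddMonoidHom.ext fun g => ?_
  apply hsep
  intro k
  obtain ⟨z, -, hz⟩ := hdiv k x hxV
  rw [hz]
  exact ⟨z g, rfl⟩

end Fermat.Agent.S38.H59
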