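import Fermat.Agent.S58.H999.Compare
import Fermat.Agent.S59.TW.Aut.Spec

/-!
# Row HARD, leaf IA-MINZERO, piece Z3 (UNIT) (helper59)

For a Taylor–Wiles prime `q ≡ 1 mod p` and a lift `α` of an eigenvalue of `ρ̄(Frob_q)` (the two
eigenvalues being distinct, with product `det ρ̄(Frob_q) = q = 1`), `α² - 1` is a unit of `𝒪`.
-/

set_option autoImplicit false

namespace Fermat.Agent.S38.H59

open Polynomial IsLocalRing
open Fermat.Agent.S59.Arch Fermat.Agent.S59.TW.H959 Fermat.Agent.S59.TW.Aut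

/-- the determinant of a two-dimensional endomorphism with split characteristic polynomial -/
theorem det_eq_mul_of_charpoly59 {k : Type} [Field k] {V : Type} [AddCommGroup V] [Module k V]
    [Module.Finite k V] (hV : Module.finrank k V = 2) (f : Module.End k V) (a b : k)
    (h : LinearMap.charpoly f = (X - C a) * (X - C b)) : LinearMap.det f = a * b := by
  rw [LinearMap.det_eq_sign_charpoly_coeff, hV, h]
  simp [Polynomial.mul_coeff_zero]

/-- **Z3 (UNIT).**  `α_j² - 1` is a unit for every Taylor–Wiles prime. -/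
theorem isUnit_sq_sub_one59 (p : ℕ) [Fact p.Prime]
    (𝒪 : Type) [CommRing 𝒪] [IsDomain 𝒪] [IsDiscreteValuationRing 𝒪]
    (ρbar : ResidualGaloisRep (ResidueField 𝒪))
    (hdet : (GaloisRepAdic.ofResidualGaloisRep ρbar).DetIsCyclotomic p)
    (S : Finset ℕ) (hpS : p ∈ S) (n r : ℕ) (qv : Fin r → ℕ) (hq : IsTWSet p ρbar S n qv)
    (α : Fin r → 𝒪) (hα : IsFrobLift ρbar qv α) (j : Fin r) : IsUnit (α j ^ 2 - 1) := by
  obtain ⟨P, φ, β, hP, hφ, hne, hcp⟩ := hα j
  obtain ⟨hqp, hqS, hdvd⟩ := hq.2.1 j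
  have hqne : qv j ≠ p := fun h => hqS (h ▸ hpS)
  have hdet' : LinearMap.det (ρbar.ρ φ) = ((qv j : ℕ) : ResidueField 𝒪) :=
    Fermat.Agent.S58.H999.det_frob_eq p hdet hqp hqne P hP φ hφ
  have hdetcp : LinearMap.det (ρbar.ρ φ) = residue 𝒪 (α j) * β :=
    det_eq_mul_of_charpoly59 ρbar.finrank_eq _ _ _ hcp
  -- `q = 1` in the residue field
  have hp0 : ((p : ℕ) : ResidueField 𝒪) = 0 := hdet.1 |> fun h => by
    have h0 : IsLocalRing.maximalIdeal (ResidueField 𝒪) = ⊥ := IsLocalRing.maximalIdeal_eq_bot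
    rw [h0] at h
    exact h
  have hq1 : ((qv j : ℕ) : ResidueField 𝒪) = 1 := by
    have hpd : p ∣ qv j - 1 := Dvd.dvd.trans (dvd_pow_self p (Nat.succ_ne_zero n)) hdvd
    obtain ⟨c, hc⟩ := hpd
    have hpos : 1 ≤ qv j := hqp.one_lt.le
    have hq' : qv j = p * c + 1 := by omega
    rw [hq', Nat.cast_add, Nat.cast_mul, hp0, zero_mul, zero_add, Nat.cast_one]
  have hab : residue 𝒪 (α j) * β = 1 := by rw [← hdetcp, hdet', hq1]
  have hres : residue 𝒪 (α j ^ 2 - 1) ≠ 0 := by
    intro h0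
    rw [map_sub, map_pow, map_one, sub_eq_zero] at h0
    apply hne
    have ha0 : residue 𝒪 (α j) ≠ 0 := by
      intro h
      rw [h, zero_mul] at hab
      exact zero_ne_one hab
    have : residue 𝒪 (α j) * residue 𝒪 (α j) = residue 𝒪 (α j) * β := by
      rw [← pow_two, h0, hab]
    exact mul_left_cancel₀ ha0 this
  by_contra hu
  exact hres ((residue_eq_zero_iff _).mpr ((mem_maximalIdeal _).mpr hu))

end Fermat.Agent.S38.H59
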