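import Fermat.Agent.S38.IA.Hecke.Spec4
import Fermat.Agent.S38.H916.GIdx
import Fermat.Agent.S38.H719.CtrlMinFree
import Fermat.Agent.S38.H841.DictMinFinal
import Fermat.Agent.S59.H105.LocBridge
import Fermat.Agent.S59.TW.Aut.H31.NonEis
import Fermat.Agent.S59.Arch.WilesLevel
import Fermat.Agent.S38.H59.MinZeroCore
import Fermat.Agent.S38.H59.MinZeroUnit

/-!
# Row HARD, cell HECKE, layer 4: leaf IA-MINZERO, assembly (helper59)

`iaMinZero59 : IAMinZeroStatement` VERBATIM (`S38/IA/Hecke/Spec4.lean`, helper3).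

Pieces (cut Z1–Z6 of the board):
* Z1 (`IsLocPart` ⟹ `H719.IsPartKer`): `H105.isLocPart_nilpT/U` + `topNilAt_of_nilp59`;
* Z2 (`cor` of the part is `0`): `H719.IsPartKer.cor` + `H719.eq_zero_of_isPart_chain`;
* Z3 (`α_j² - 1` units): `isUnit_sq_sub_one59`;
* Z4 (`cor = 0` on the image of the projector ⟹ the image is `0`): `eq_zero_of_cor_eq_zero59`;
* Z5 (DICT-MIN): `H841.dictMin_isPart_h841` (helper841).
-/

set_option autoImplicit false
set_option linter.style.haveILetI false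

open Polynomial IsLocalRing CongruenceSubgroup
open scoped MatrixGroups

namespace Fermat.Agent.S38.H59

open Fermat.Agent.S59.Arch Fermat.Agent.S59.TW.H959 Fermat.Agent.S59.TW Fermat.Agent.S59.H765
open Fermat.Agent.S59.TW.H653 Fermat.Agent.S59.TW.Aut Fermat.Agent.S59.MFree
open Fermat.Agent.S59.MFree.H587
open Fermat.Agent.S38.IA Fermat.Agent.S38.IA.Hecke Fermat.Agent.S38.H916
open Fermat.Agent.S38.H719 Fermat.Agent.S38.H841 Fermat.Agent.S59.H105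
open CuspForm

/-! ## Abstract pieces -/

/-- nilpotence modulo `ϖ` on a stable submodule ⟹ topological nilpotence at every vector -/
theorem topNilAt_of_nilp59 {R X : Type*} [CommRing R] [AddCommGroup X] [Module R X]
    (V : Submodule R X) (f : X →ₗ[R] X) (ϖ : R) (m : ℕ)
    (h : ∀ x ∈ V, ∃ z ∈ V, (f ^ m) x = ϖ • z) {x : X} (hx : x ∈ V) :
    TopNilAt ϖ f x := by
  have key : ∀ n : ℕ, ∀ x ∈ V, ∃ z ∈ V, (f ^ (m * n)) x = ϖ ^ n • z := by
    intro n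
    induction n with
    | zero =>
      intro x hx
      exact ⟨x, hx, by simp⟩
    | succ n ih =>
      intro x hx
      obtain ⟨z, hz, hfz⟩ := h x hx
      obtain ⟨w, hw, hfw⟩ := ih z hz
      refine ⟨w, hw, ?_⟩
      rw [Nat.mul_succ, pow_add, Module.End.mul_apply, hfz, map_smul, hfw, smul_smul,
        ← pow_succ']
  intro n
  obtain ⟨z, -, hz⟩ := key n x hx
  exact ⟨m * n, z, by rw [← Module.End.pow_apply]; exact hz⟩

theorem foldl_mul_eq59 (L : List ℕ) : ∀ a : ℕ, L.foldl (· * ·) a = a * L.prod := by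
  induction L with
  | nil => intro a; simp
  | cons x L ih =>
    intro a
    rw [List.foldl_cons, ih, List.prod_cons, mul_assoc]

theorem foldl_ofFn_eq_gLevel59 (N₀ : ℕ) {r : ℕ} (qv : Fin r → ℕ) :
    (List.ofFn qv).foldl (· * ·) N₀ = gLevel N₀ qv := by
  rw [foldl_mul_eq59, List.prod_ofFn]
  rfl

/-- The primes dividing Ribet's level lie in `Smin ∪ Piv`. -/
theorem mem_of_dvd_ribetLevel59 {p : ℕ} {Smin Piv : Finset ℕ}
    (hS : ∀ q ∈ Smin, q.Prime) (hP : ∀ q ∈ Piv, q.Prime) {q : ℕ} (hq : q.Prime)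
    (hdvd : q ∣ ribetLevel p Smin Piv) : q ∈ Smin ∪ Piv := by
  unfold ribetLevel at hdvd
  rw [Finset.mem_union]
  rcases (Nat.Prime.dvd_mul hq).mp hdvd with h | h
  · obtain ⟨a, ha, hqa⟩ := (Prime.dvd_finsetProd_iff hq.prime _).mp h
    have ha' : a ∈ Smin := Finset.mem_of_mem_erase ha
    have : q = a := (Nat.prime_dvd_prime_iff_eq hq (hS a ha')).mp hqa
    exact Or.inl (this ▸ ha')
  · obtain ⟨a, ha, hqa⟩ := (Prime.dvd_finsetProd_iff hq.prime _).mp h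
    have : q = a := (Nat.prime_dvd_prime_iff_eq hq (hP a ha)).mp hqa
    exact Or.inr (this ▸ ha)

theorem ribetLevel_ne_zero59 {p : ℕ} {Smin Piv : Finset ℕ}
    (hS : ∀ q ∈ Smin, q.Prime) (hP : ∀ q ∈ Piv, q.Prime) : ribetLevel p Smin Piv ≠ 0 := by
  unfold ribetLevel
  refine Nat.mul_ne_zero ?_ ?_
  · exact Finset.prod_ne_zero_iff.mpr fun a ha => (hS a (Finset.mem_of_mem_erase ha)).ne_zero
  · exact Finset.prod_ne_zero_iff.mpr fun a ha => (hP a ha).ne_zero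

/-! ## The general form -/

section Gen

variable (p : ℕ) [Fact p.Prime]
  (𝒪 : Type) [CommRing 𝒪] [IsDomain 𝒪] [IsDiscreteValuationRing 𝒪]
  [IsAdicComplete (maximalIdeal 𝒪) 𝒪] [Finite (ResidueField 𝒪)] [CharZero 𝒪]
  (ρbar : ResidualGaloisRep (ResidueField 𝒪))

/-- **IA-MINZERO, general form.**  `N₀` a level at which `ρ̄` is NOT modular, `qv` a family of
distinct primes not dividing `N₀` with `α_j² - 1` units: the localisation of
`X_K(𝒪)`, `K = Γ₀(N₀) ∩ Γ_H(qv)`, at the maximal ideal `(𝔪, T_ℓ - c_ℓ, U_{q_j} - α_j)` of a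
package is zero. -/
theorem minZero_gen59 (hp5 : 5 ≤ p) (Smin : Finset ℕ) (h : ResidualHyp p 𝒪 ρbar Smin)
    (N₀ : ℕ) (hN₀ : N₀ ≠ 0) (Sig : Finset ℕ) (hSigP : ∀ q ∈ Sig, q.Prime) (hsub : Smin ⊆ Sig)
    (hN₀S : ∀ q : ℕ, q.Prime → q ∣ N₀ → q ∈ Sig)
    (hmin : ¬ ResModular 𝒪 ρbar N₀ Sig)
    (t : PType) [NeZero (wilesLevel p t Smin Sig)] (PQ : HeckePkg p 𝒪 ρbar t Smin Sig)
    {r : ℕ} (qv : Fin r → ℕ) (hinj : Function.Injective qv) (hqvP : ∀ j, (qv j).Prime)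
    (hqvS : ∀ j, qv j ∈ Sig) (hqvN : ∀ j, ¬ qv j ∣ N₀)
    (α : Fin r → 𝒪) (hunit : ∀ j, IsUnit (α j ^ 2 - 1))
    (V' : Submodule 𝒪 (Additive (KG p N₀ qv) →+ 𝒪))
    (hV' : IsLocPart (isMid_KG p N₀ qv) (TsetOf PQ) (UsetOf qv α) V') : V' = ⊥ := by
  classical
  have hp : p.Prime := Fact.out
  have hM : NeZero (gLevel N₀ qv) := neZero_gLevel_h916 N₀ qv hN₀ hqvP
  haveI : NeZero N₀ := ⟨hN₀⟩
  have hqne : ∀ s, NeZero (qv s) := fun s => ⟨(hqvP s).ne_zero⟩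
  obtain ⟨ϖ, hϖ0, hϖ⟩ := exists_uniformizer 𝒪
  have hϖm : ϖ ∈ maximalIdeal 𝒪 := by
    rw [hϖ]
    exact Ideal.mem_span_singleton_self ϖ
  have hϖp : ϖ ∣ (p : 𝒪) := by
    have := h.hp𝒪
    rw [hϖ] at this
    exact Ideal.mem_span_singleton.mp this
  have hsepO : ∀ a : 𝒪, (∀ n : ℕ, ∃ z : 𝒪, a = ϖ ^ n • z) → a = 0 := fun a ha => o_sep hϖ a ha
  -- `κ`
  have hred := gRed_surjective_h916 N₀ qv hN₀ hinj hqvP
  have hκ := gKappa_surjective_h916 p N₀ qv hred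
  letI : Fintype (GDelta p qv) := Fintype.ofFinite _
  have hcard : ∃ a : ℕ, Fintype.card (GDelta p qv) = p ^ a :=
    ⟨_, by rw [← Nat.card_eq_fintype_card]; exact card_gDelta_h916 p qv hqvP⟩
  have hΓ1 := gKappa_trivial_h916 p N₀ qv
  obtain ⟨e, he, heV, hVe, -, -, hD, -⟩ := hV'.exists_proj
  have hconj : ∀ (g : Gamma0 (gLevel N₀ qv))
      (z : Additive (kerSub (gKappa p N₀ qv)) →+ 𝒪),
      conjAct (gKappa p N₀ qv) g z =
        diamondU (isMid_KG p N₀ qv) (dUnit (gLevel N₀ qv) g⁻¹) z := by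
    intro g z
    rw [conjAct_eq_diamond (gKappa p N₀ qv) hΓ1 g z, diamond_eq_diamondU]
    rfl
  -- the eigen-data
  have hTmem : ∀ l : ℕ, l.Prime → l ∉ Sig → ¬ l ∣ wilesLevel p t Smin Sig :=
    fun l hl hlS hdvd =>
      hlS (mem_of_prime_dvd_wilesLevel hp h.hSmin hSigP h.hpSmin hsub l hl hdvd)
  have hcoe : ∀ l : ℕ, l ∉ Sig → l ∉ (↑Sig : Set ℕ) := fun l hl hl' => hl (Finset.mem_coe.mp hl')
  let c : ℕ → 𝒪 := fun l =>
    if hl : l.Prime ∧ l ∉ Sig then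
      (residue_surjective (PQ.θ (heckeAlgebra.T hl.1 (hTmem l hl.1 hl.2) (hcoe l hl.2)))).choose
    else 0
  have hcres : ∀ (l : ℕ) (hl : l.Prime) (hlS : l ∉ Sig),
      residue 𝒪 (c l) = PQ.θ (heckeAlgebra.T hl (hTmem l hl hlS) (hcoe l hlS)) := by
    intro l hl hlS
    simp only [c, dif_pos (And.intro hl hlS)]
    exact (residue_surjective
      (PQ.θ (heckeAlgebra.T hl (hTmem l hl hlS) (hcoe l hlS)))).choose_spec
  let α' : ℕ → 𝒪 := fun q' => if hq' : ∃ j, qv j = q' then α hq'.choose else 0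
  have hα' : ∀ j, α' (qv j) = α j := by
    intro j
    have hex : ∃ i, qv i = qv j := ⟨j, rfl⟩
    simp only [α', dif_pos hex]
    exact congrArg α (hinj hex.choose_spec)
  let Ipr : Set ℕ := {l | l.Prime ∧ l ∉ Sig}
  have hnd : (List.ofFn qv).Nodup := List.nodup_ofFn.mpr hinj
  -- Z1: the part
  have hpart : ∀ x : Additive (kerSub (gKappa p N₀ qv)) →+ 𝒪, e x = x →
      IsPartKer (gKappa p N₀ qv) hΓ1 ϖ Ipr c {q' | q' ∈ List.ofFn qv} α' x := by
    intro x hx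
    have hxV : x ∈ V' := by
      rw [← hx]
      exact heV x
    refine ⟨fun l _ hl hlI => ?_, fun q' _ hq' hq'Q => ?_⟩
    · have hlp : l.Prime := hlI.1
      have hmem : (l, c l) ∈ TsetOf PQ :=
        ⟨hlp, hTmem l hlp hlI.2, hcoe l hlI.2, hcres l hlp hlI.2⟩
      obtain ⟨m, hm⟩ := isLocPart_nilpT (isMid_KG p N₀ qv) hV' hϖ hl hmem
      have hnil := topNilAt_of_nilp59 V' (shiftE 𝒪 (TKL (isMid_KG p N₀ qv) 𝒪 hl) (c l)) ϖ m hm hxV
      have heq : shiftBy (heckeKerLin hl (gKappa p N₀ qv) hΓ1 𝒪) (c l) =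
          shiftE 𝒪 (TKL (isMid_KG p N₀ qv) 𝒪 hl) (c l) := by
        apply LinearMap.ext
        intro y
        show heckeKerLin hl (gKappa p N₀ qv) hΓ1 𝒪 y - c l • y =
          TK (gLevel N₀ qv) (kerSub (gKappa p N₀ qv)) l y - c l • y
        congr 1
        exact heckeKer_eq_TK hl (gKappa p N₀ qv) hΓ1 y
      rw [heq]
      exact hnil
    · obtain ⟨j, rfl⟩ := List.mem_ofFn.mp hq'Q
      have hmem : (qv j, α j) ∈ UsetOf qv α := ⟨j, rfl⟩
      obtain ⟨m, hm⟩ := isLocPart_nilpU (isMid_KG p N₀ qv) hV' hϖ hq' hmem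
      have hnil := topNilAt_of_nilp59 V' (shiftE 𝒪 (UKL (isMid_KG p N₀ qv) 𝒪 hq') (α j)) ϖ m hm hxV
      have heq : shiftBy (UqKerLin (gKappa p N₀ qv) hΓ1 hq' 𝒪) (α' (qv j)) =
          shiftE 𝒪 (UKL (isMid_KG p N₀ qv) 𝒪 hq') (α j) := by
        rw [hα']
        apply LinearMap.ext
        intro y
        rfl
      rw [heq]
      exact hnil
  -- Z5: (MIN) at level `N₀`
  have hc : ∀ (l : ℕ), l.Prime → l ∉ Sig →
      ∀ B : ValuationSubring Fermat.Agent.S31.Qb, B.LiesOverPrime l →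
        ∀ σ : Fermat.Agent.S31.GQ, B.IsFrobeniusAt σ l →
          LinearMap.charpoly (ρbar.ρ σ) =
            X ^ 2 - C (residue 𝒪 (c l)) * X + C ((l : ResidueField 𝒪)) := by
    intro l hl hlS B hB σ hσ
    rw [hcres l hl hlS]
    exact H31.resFrobCond_of_pkg PQ l hl (hTmem l hl hlS) (hcoe l hlS) B hB σ hσ
  have hmin' : ∀ y : Additive (Gamma0 N₀) →+ 𝒪, IsPart 𝒪 𝒪 ϖ Ipr c ∅ α' N₀ y → y = 0 :=
    dictMin_isPart_h841 p 𝒪 ρbar h.hp2 h.hp𝒪 h.habs h.hsplit N₀ Sig (hsub h.hpSmin) hN₀S hmin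
      ϖ hϖm c hc Ipr (fun l hl hlS => ⟨hl, hlS⟩) α'
  -- Z2: the chain
  have hLall : ∀ q' ∈ List.ofFn qv,
      q'.Prime ∧ ¬ q' ∣ N₀ ∧ q' ∉ Ipr ∧ IsUnit (α' q' ^ 2 - 1) := by
    intro q' hq'
    obtain ⟨j, rfl⟩ := List.mem_ofFn.mp hq'
    exact ⟨hqvP j, hqvN j, fun hI => hI.2 (hqvS j), by rw [hα']; exact hunit j⟩
  have hchain := eq_zero_of_isPart_chain (O := 𝒪) (A := 𝒪) (ϖ := ϖ) (Ipr := Ipr) (c := c)
    (α := α') hsepO (List.ofFn qv) N₀ ∅ hN₀ hnd hLall hmin'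
  have hchain' : ∀ (M : ℕ), M = (List.ofFn qv).foldl (· * ·) N₀ →
      ∀ y : Additive (Gamma0 M) →+ 𝒪,
        IsPart 𝒪 𝒪 ϖ Ipr c (∅ ∪ {q' | q' ∈ List.ofFn qv}) α' M y → y = 0 := by
    intro M hMeq
    subst hMeq
    exact hchain
  have hcor : ∀ x : Additive (kerSub (gKappa p N₀ qv)) →+ 𝒪, e x = x →
      cor (gKappa p N₀ qv) x = 0 := by
    intro x hx
    refine hchain' _ (foldl_ofFn_eq_gLevel59 N₀ qv).symm _ ((hpart x hx).cor.mono ?_)
    intro z hz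
    rcases hz with hz | hz
    · exact absurd hz (Set.notMem_empty z)
    · exact hz
  -- Z4
  have hzero := eq_zero_of_cor_eq_zero59 hp5 (NeZero.ne (gLevel N₀ qv)) (gKappa p N₀ qv) hΓ1 hκ
    hcard ϖ hϖp (fun a ha => hsepO a fun n => by
      obtain ⟨z, hz⟩ := ha n
      exact ⟨z, hz⟩) e he
    (fun g x => by rw [hconj, hconj]; exact hD _ x) hcor
  rw [eq_bot_iff]
  intro x hx
  rw [Submodule.mem_bot]
  exact hzero x (hVe x hx)

end Gen

/-! ## The leaf -/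

/-- **IA-MINZERO**, verbatim. -/
theorem iaMinZero59 : IAMinZeroStatement := by
  intro p _ hp5 𝒪 _ _ _ _ _ _ ρbar Smin h _ Piv hPiv hmin n r qv hq _ PQ α hα q hqP V' hV'
  have hPivP : ∀ q' ∈ Piv, q'.Prime := fun q' hq' => (hPiv q' hq').1
  have hPivP' : ∀ q' ∈ Piv.erase q, q'.Prime := fun q' hq' => hPivP q' (Finset.mem_of_mem_erase hq')
  have hqvP : ∀ j, (qv j).Prime := fun j => (hq.2.1 j).1
  have hSigP : ∀ q' ∈ Smin ∪ Piv ∪ Finset.univ.image qv, q'.Prime := by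
    intro q' hq'
    rcases Finset.mem_union.mp hq' with h1 | h1
    · rcases Finset.mem_union.mp h1 with h2 | h2
      · exact h.hSmin q' h2
      · exact hPivP q' h2
    · obtain ⟨j, -, rfl⟩ := Finset.mem_image.mp h1
      exact hqvP j
  have hsub : Smin ⊆ Smin ∪ Piv ∪ Finset.univ.image qv := fun x hx =>
    Finset.mem_union_left _ (Finset.mem_union_left _ hx)
  have hLS : ∀ q' : ℕ, q'.Prime → q' ∣ ribetLevel p Smin (Piv.erase q) → q' ∈ Smin ∪ Piv := by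
    intro q' hq' hdvd
    rcases Finset.mem_union.mp (mem_of_dvd_ribetLevel59 h.hSmin hPivP' hq' hdvd) with h1 | h1
    · exact Finset.mem_union_left _ h1
    · exact Finset.mem_union_right _ (Finset.mem_of_mem_erase h1)
  exact minZero_gen59 p 𝒪 ρbar hp5 Smin h (ribetLevel p Smin (Piv.erase q))
    (ribetLevel_ne_zero59 h.hSmin hPivP') (Smin ∪ Piv ∪ Finset.univ.image qv) hSigP hsub
    (fun q' hq' hdvd => Finset.mem_union_left _ (hLS q' hq' hdvd))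
    (hmin q hqP _) .flat PQ qv hq.1 hqvP
    (fun j => Finset.mem_union_right _ (Finset.mem_image_of_mem qv (Finset.mem_univ j)))
    (fun j hdvd => (hq.2.1 j).2.1 (hLS (qv j) (hqvP j) hdvd))
    α (fun j => isUnit_sq_sub_one59 p 𝒪 ρbar h.hdet (Smin ∪ Piv)
      (Finset.mem_union_left _ h.hpSmin) n r qv hq α hα j)
    V' hV'

end Fermat.Agent.S38.H59
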