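import Fermat.Agent.S59.MFree.H587.HeckeKer
import Fermat.Agent.Ribet.H723.WallQPlus

/-!
# Row HARD (row 37, hard case), cell HECKE, leaf TW-MIN = "Taylor–Wiles control at level `L/q`"
(squad S55/S59, squad-lead helper59) — frozen interface

## What the leaf says
`TWMinStatement`: let `P` be a Frey package with `E[p]` irreducible, `N > 0` a level, `Q` a finite
set of odd primes `q ∤ N p` at which `q ≢ 1 mod p` or some Frobenius is not scalar on `E[p]`
(Taylor–Wiles primes: distinct Frobenius eigenvalues), `M = N ∏_{q ∈ Q} q`, and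
`κ : Γ₀(M) → D` a `p`-group quotient through the lower right entry (`Γ' = ker κ`, e.g.
`Γ' = Γ₀(N) ∩ Γ_H(Q)`).  If the mod-`p` eigensystem of `E` occurs in the Betti cohomology
`Hom(Γ', 𝔽_p)`, then `P.ModularRepOfLevel N`.

## How the row uses it
With `N = L / q` (`q` the pivot) and the hypothesis (MIN) `¬ P.ModularRepOfLevel (L / q)`:
the eigensystem of `E[p]` does not occur in `Hom(Γ₀(L/q) ∩ Γ_H(Q), 𝔽_p)`, hence the two
`q`-traces vanish on the `𝔪`-part `M¹_Q` of `Hom(Γ₀(L) ∩ Γ_H(Q), 𝒪)`: every eigensystem of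
`M¹_Q` is `q`-new.  (Then (ST): `h_q M¹_Q = 0`.)

## Leaves (each a `Prop`; prove `theorem foo : FooStatement`)
| leaf | Prop | content |
|---|---|---|
| ALG  | `CommKerRangeStatement` | Mathlib only: commuting family on a finite-dimensional space: `⨆ range = ⊤ ↔ ⨅ ker = ⊥` |
| TORS | `TorsionTwelveStatement` | Mathlib only: elements of finite order of `SL(2,ℤ)` satisfy `g ^ 12 = 1` |
| COMM | `HeckeKerCommStatement` | the `heckeKer` operators commute (bridge to `S59.TW.H653.TK_comm`) |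
| CTRL | `CtrlModPStatement` | mod-`p` control WITHOUT idempotents: occurs in `Hom(Γ', 𝔽_p)` ⇒ occurs in `Hom(Γ₀(M), 𝔽_p)` |
| BDRY | `BdryStatement` | the boundary is Eisenstein: `T_ℓ φ = (ℓ + 1) φ` on parabolic elements, `ℓ ≡ 1 mod M` |
| FORM | `FormOfClassStatement` | occurs in `Hom(Γ₀(M), 𝔽_p)` ⇒ `P.ModularRepOfLevel M` |
| MPIT | `MPIterStatement` | `MP⁺` iterated over `Q`: level `N ∏ Q` ⇒ level `N` |
Glue: `twMin_of_leaves` (file `TWMinGlue.lean`).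
-/

set_option autoImplicit false

open WeierstrassCurve WeierstrassCurve.Affine WeierstrassCurve.Affine.Point

namespace Fermat.Agent.S38.H59

open CongruenceSubgroup Matrix.SpecialLinearGroup
open Fermat.Agent.S29.H642 Fermat.Agent.S59.MFree Fermat.Agent.S59.MFree.H587
open Fermat.Agent.Ribet.H723
open scoped MatrixGroups

/-! ## Occurrence of an eigensystem in Betti cohomology mod `p` -/

/-- The eigensystem `a` (integers, taken mod `p`; only the primes `ℓ ∤ M` with `good ℓ` matter)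
**occurs in `Hom(Γ', 𝔽_p)`**, `Γ' = ker κ`, for the Hecke operators `MFree.H587.heckeKer`. -/
def OccursKer (p : ℕ) {M : ℕ} {D : Type} [Group D] (κ : Gamma0 M →* D)
    (hΓ1 : ∀ γ : Gamma0 M, ((((γ : SL(2, ℤ)) 1 1 : ℤ)) : ZMod M) = 1 → κ γ = 1)
    (good : ℕ → Prop) (a : ℕ → ℤ) : Prop :=
  ∃ x : Additive (kerSub κ) →+ ZMod p, x ≠ 0 ∧
    ∀ (ℓ : ℕ) [Fact ℓ.Prime] (hℓ : ¬ ℓ ∣ M), good ℓ →
      heckeKer hℓ κ hΓ1 x = ((a ℓ : ℤ) : ZMod p) • x

/-- The eigensystem `a` **occurs in `Hom(Γ₀(M), 𝔽_p)`**, for the Hecke transfers of S29/S41. -/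
def OccursGamma0 (p M : ℕ) (good : ℕ → Prop) (a : ℕ → ℤ) : Prop :=
  ∃ y : Additive (Gamma0 M) →+ ZMod p, y ≠ 0 ∧
    ∀ (ℓ : ℕ) [Fact ℓ.Prime] (hℓ : ¬ ℓ ∣ M), good ℓ →
      heckeTransfer hℓ y = ((a ℓ : ℤ) : ZMod p) • y

/-! ## Leaves -/

/-- **ALG (Mathlib only).**  For a pairwise commuting family of endomorphisms of a
finite-dimensional vector space: the ranges span everything iff the common kernel is zero.
(`⇒`: Nakayama over the commutative algebra generated by the family, which acts faithfully;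
`⇐`: apply `⇒` to the transposes on the dual space.) -/
def CommKerRangeStatement : Prop :=
  ∀ (k : Type) [Field k] (V : Type) [AddCommGroup V] [Module k V] [FiniteDimensional k V]
    (ι : Type) (f : ι → Module.End k V), (∀ i j, Commute (f i) (f j)) →
    ((⨆ i, LinearMap.range (f i)) = ⊤ ↔ (⨅ i, LinearMap.ker (f i)) = ⊥)

/-- **TORS (Mathlib only).**  An element of finite order of `SL(2,ℤ)` has order dividing `12`. -/
def TorsionTwelveStatement : Prop :=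
  ∀ g : SL(2, ℤ), IsOfFinOrder g → g ^ 12 = 1

/-- **COMM.**  The Hecke operators `heckeKer` on `Hom(ker κ, A)` commute.
(`S59.TW.H653.TK_comm` for the mid subgroup `K = ker κ`, after identifying `heckeKer` with
`TK`: both are transfers of normalised coset systems with constant `ℓ`,
`H587.heckeKerOf_congr`.) -/
def HeckeKerCommStatement : Prop :=
  ∀ (M ℓ ℓ' : ℕ) [Fact ℓ.Prime] [Fact ℓ'.Prime] (hℓ : ¬ ℓ ∣ M) (hℓ' : ¬ ℓ' ∣ M), M ≠ 0 →
    ∀ (D : Type) [Group D] (κ : Gamma0 M →* D)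
      (hΓ1 : ∀ γ : Gamma0 M, ((((γ : SL(2, ℤ)) 1 1 : ℤ)) : ZMod M) = 1 → κ γ = 1)
      (A : Type) [AddCommGroup A] (φ : Additive (kerSub κ) →+ A),
      heckeKer hℓ κ hΓ1 (heckeKer hℓ' κ hΓ1 φ) = heckeKer hℓ' κ hΓ1 (heckeKer hℓ κ hΓ1 φ)

/-- **CTRL: control modulo `p`, without idempotents.**  `p ≥ 5`, `D` a finite `p`-group,
`κ : Γ₀(M) ↠ D` trivial on `{d ≡ 1 mod M}`.  An eigensystem occurring in `Hom(ker κ, 𝔽_p)` occurs
in `Hom(Γ₀(M), 𝔽_p)`.
(`cor : V = Hom(ker κ, 𝔽_p) → Y = Hom(Γ₀(M), 𝔽_p)` is onto with kernel `I_D V`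
(`MFree.H761.kerCor`, `corSurj`; all classes are torsion-trivial by TORS) and
`cor ∘ t_ℓ = T_ℓ ∘ cor` (`H587.cor_heckeKerOf`).  The eigenspace of `V` is `D`-stable, so it
contains a `D`-fixed `x₀ ≠ 0` (`p`-group); ALG on `V` for the family `t_ℓ - a_ℓ`, `d - 1`:
`V ≠ ∑ (t_ℓ - a_ℓ) V + I_D V`, hence `Y ≠ ∑ (T_ℓ - a_ℓ) Y`; ALG on `Y`.) -/
def CtrlModPStatement : Prop :=
  ∀ (p : ℕ) [Fact p.Prime], 5 ≤ p → ∀ (M : ℕ), M ≠ 0 →
    ∀ (D : Type) [Group D] [Fintype D] (κ : Gamma0 M →* D)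
      (hΓ1 : ∀ γ : Gamma0 M, ((((γ : SL(2, ℤ)) 1 1 : ℤ)) : ZMod M) = 1 → κ γ = 1),
      Function.Surjective κ → (∃ n : ℕ, Fintype.card D = p ^ n) →
      ∀ (good : ℕ → Prop) (a : ℕ → ℤ), OccursKer p κ hΓ1 good a → OccursGamma0 p M good a

/-- **BDRY: the boundary is Eisenstein.**  For a prime `ℓ ≡ 1 mod M`, `ℓ ≠ 2`, every
`φ ∈ Hom(Γ₀(M), A)` and every parabolic `γ ∈ Γ₀(M)` (`(tr γ)² = 4`):
`(T_ℓ φ)(γ) = (ℓ + 1) φ(γ)`.
(Cycle decomposition of the permutation of `ℙ¹(𝔽_ℓ)` induced by `γ`: the orbit products are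
`α γ^m α⁻¹`, `α` integral of determinant `ℓ`, `≡` unipotent upper triangular mod `M`; such an
element is `Γ(M)`-conjugate to `γ^{m'}`, and the exponents add up to `ℓ + 1`.) -/
def BdryStatement : Prop :=
  ∀ (M ℓ : ℕ) [Fact ℓ.Prime] (hℓ : ¬ ℓ ∣ M), M ≠ 0 → ℓ ≠ 2 → ℓ ≡ 1 [MOD M] →
    ∀ (A : Type) [AddCommGroup A] (φ : Additive (Gamma0 M) →+ A) (γ : Gamma0 M),
      ((γ : SL(2, ℤ)) : Matrix (Fin 2) (Fin 2) ℤ).trace ^ 2 = 4 →
      heckeTransfer hℓ φ (Additive.ofMul γ) = (ℓ + 1) • φ (Additive.ofMul γ)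

/-- **FORM: from Betti cohomology mod `p` to eigenforms.**  If the eigensystem of the Frey curve
occurs in `Hom(Γ₀(M), 𝔽_p)` and `E[p]` is irreducible, then `E[p]` is modular of level `M`.
(`S41.H45.ne_h45` gives a good `ℓ₀ ≡ 1 mod M` with `a_ℓ₀ ≢ ℓ₀ + 1`; BDRY + TORS ⇒ the class is
parabolic and torsion-trivial; `Lib.HFree.H412.exists_lift_isParHom` (lift to `ℤ`),
`Ribet.H883.exists_eigenform_of_lattice_class` (Deligne–Serre + S21),
`Ribet.H943.almostAllToWitness`.) -/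
def FormOfClassStatement : Prop :=
  ∀ (P : FreyPackage) (W : WeierstrassCurve ℤ), W.IsIntegralModelOf P.freyCurve →
    GaloisRepIsIrreducible (K := AlgebraicClosure ℚ) ℚ P.freyCurve P.p →
    ∀ (M : ℕ), 0 < M →
      OccursGamma0 P.p M (fun ℓ => W.IsGoodPrimeFor ℓ ∧ ℓ ≠ P.p) (fun ℓ => W.apOfModel ℓ) →
      P.ModularRepOfLevel M

/-- The hypothesis on the auxiliary primes: odd, prime to `N p`, and "not hard-scalar". -/
def IsSoftSet (P : FreyPackage) (N : ℕ) (Q : Finset ℕ) : Prop :=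
  ∀ q ∈ Q, q.Prime ∧ q ≠ 2 ∧ q ≠ P.p ∧ ¬ q ∣ N ∧ (¬ P.p ∣ q - 1 ∨ ¬ FrobScalarAt P q)

/-- **MPIT: `MP⁺` iterated.**  Given Mazur's principle in the sharp form and the unramifiedness
of `E[p]` at the odd primes `q ≠ p` (S05), the primes of a soft set can be removed from the
level. -/
def MPIterStatement : Prop :=
  MazurPrincipleOddPlusStatement →
  (∀ (P : FreyPackage) (q : ℕ), q.Prime → q ≠ 2 → q ≠ P.p → P.GaloisRepUnramifiedAt q) →
  ∀ (P : FreyPackage) (N : ℕ) (Q : Finset ℕ), 0 < N → IsSoftSet P N Q →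
    GaloisRepIsIrreducible (K := AlgebraicClosure ℚ) ℚ P.freyCurve P.p →
    P.ModularRepOfLevel (N * ∏ q ∈ Q, q) → P.ModularRepOfLevel N

/-! ## Conditional forms (what the owners prove first) -/

/-- CTRL from COMM and TORS (owner: helper59). -/
def CtrlOfStatement : Prop :=
  HeckeKerCommStatement → TorsionTwelveStatement → CtrlModPStatement

/-- FORM from BDRY and TORS. -/
def FormOfStatement : Prop :=
  BdryStatement → TorsionTwelveStatement → FormOfClassStatement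

/-! ## The leaf of the row -/

/-- **TW-MIN = Taylor–Wiles control at a level where `ρ̄` need not be modular.**
If the eigensystem of the Frey curve occurs in `Hom(Γ', 𝔽_p)`, `Γ' = ker κ ≤ Γ₀(N ∏ Q)` of
`p`-power index (`Γ₁(N ∏ Q) ≤ Γ'`), `Q` a soft set, then `E[p]` is modular of level `N`. -/
def TWMinStatement : Prop :=
  MazurPrincipleOddPlusStatement →
  ∀ (P : FreyPackage) (W : WeierstrassCurve ℤ), W.IsIntegralModelOf P.freyCurve →
    GaloisRepIsIrreducible (K := AlgebraicClosure ℚ) ℚ P.freyCurve P.p →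
    ∀ (N : ℕ) (Q : Finset ℕ), 0 < N → IsSoftSet P N Q →
    ∀ (D : Type) [Group D] [Fintype D] (κ : Gamma0 (N * ∏ q ∈ Q, q) →* D)
      (hΓ1 : ∀ γ : Gamma0 (N * ∏ q ∈ Q, q),
        ((((γ : SL(2, ℤ)) 1 1 : ℤ)) : ZMod (N * ∏ q ∈ Q, q)) = 1 → κ γ = 1),
      Function.Surjective κ → (∃ n : ℕ, Fintype.card D = P.p ^ n) →
      OccursKer P.p κ hΓ1 (fun ℓ => W.IsGoodPrimeFor ℓ ∧ ℓ ≠ P.p) (fun ℓ => W.apOfModel ℓ) →
      P.ModularRepOfLevel N

end Fermat.Agent.S38.H59
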